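/-
DELTA / COVER-ABS (helper8), part 1: **the Artin–Schreier–Kummer polynomial**.

`p` a prime, `ϖ, η, b ∈ F` with `p = η · ϖ ^ (p - 1)`.  The substitution `Y = 1 + ϖ U` turns the
Kummer equation `Y ^ p = 1 + ϖ ^ p b` into the monic equation `Q(U) = 0`,

  `dlyQ p ϖ η b = X ^ p + η X + ϖ · R(X) - b`,   `ϖ ^ p · dlyQ = (1 + ϖ X) ^ p - (1 + ϖ ^ p b)`,

whose derivative is `η + ϖ · (…)`: a unit modulo `ϖ` when `η` is a unit.

* `dlyQ`, `dlyQ_spec`, `dlyQ_monic`, `dlyQ_natDegree`, `dlyQ_derivative`;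
* `dlyQ_mem_pol`         : the coefficients lie in any subring containing `ϖ, η, b`;
* `dly_exists_bezout`    : over a LOCAL subring `A` with `ϖ ∈ 𝔪_A`, `η ∈ A^×`, `b ∈ A` there is a Bezout
  relation `G · Q + H · Q' = 1` with `G, H ∈ A[X]` (Nakayama in `A[X] ⧸ (Q)`).
-/
import Fermat.Agent.Lib.Delta.Et.Adj

set_option autoImplicit false
set_option linter.style.haveILetI false
set_option linter.unusedSectionVars false
set_option linter.unusedVariables false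

namespace Fermat.Agent.Delta

open Polynomial

variable {F : Type*} [Field F]

/-- the middle part of the Artin–Schreier–Kummer polynomial -/
noncomputable def dlyR (p : ℕ) (ϖ η : F) : F[X] :=
  ∑ k ∈ Finset.range (p - 2), C (((p.choose (k + 2) / p : ℕ) : F) * η * ϖ ^ k) * X ^ (k + 2)

/-- **the Artin–Schreier–Kummer polynomial** -/
noncomputable def dlyQ (p : ℕ) (ϖ η b : F) : F[X] :=
  X ^ p + C η * X + C ϖ * dlyR p ϖ η - C b

theorem dlyR_degree_lt {p : ℕ} (hp : 2 ≤ p) (ϖ η : F) :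
    (dlyR p ϖ η).degree < ((p : ℕ) : WithBot ℕ) := by
  unfold dlyR
  refine lt_of_le_of_lt (degree_sum_le _ _) ?_
  rw [Finset.sup_lt_iff (by exact_mod_cast WithBot.bot_lt_coe p)]
  intro k hk
  rw [Finset.mem_range] at hk
  refine lt_of_le_of_lt (degree_C_mul_X_pow_le _ _) ?_
  exact_mod_cast (by omega : k + 2 < p)

theorem dlyQ_eq {p : ℕ} (ϖ η b : F) :
    dlyQ p ϖ η b = X ^ p + (C η * X + C ϖ * dlyR p ϖ η - C b) := by
  unfold dlyQ; ring

theorem dlyQ_lower_degree_lt {p : ℕ} (hp : 2 ≤ p) (ϖ η b : F) :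
    (C η * X + C ϖ * dlyR p ϖ η - C b).degree < ((p : ℕ) : WithBot ℕ) := by
  have h1 : (C η * X : F[X]).degree < ((p : ℕ) : WithBot ℕ) := by
    refine lt_of_le_of_lt (degree_C_mul_X_le _) ?_
    exact_mod_cast (by omega : 1 < p)
  have h2 : (C ϖ * dlyR p ϖ η).degree < ((p : ℕ) : WithBot ℕ) := by
    refine lt_of_le_of_lt (degree_mul_le _ _) ?_
    have h3 := dlyR_degree_lt hp ϖ η
    have h4 : (C ϖ : F[X]).degree ≤ 0 := degree_C_le
    calc (C ϖ : F[X]).degree + (dlyR p ϖ η).degree ≤ 0 + (dlyR p ϖ η).degree := by gcongr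
      _ = (dlyR p ϖ η).degree := zero_add _
      _ < ((p : ℕ) : WithBot ℕ) := h3
  have h3 : (C b : F[X]).degree < ((p : ℕ) : WithBot ℕ) := by
    refine lt_of_le_of_lt degree_C_le ?_
    exact_mod_cast (by omega : 0 < p)
  refine lt_of_le_of_lt (degree_sub_le _ _) (max_lt ?_ h3)
  exact lt_of_le_of_lt (degree_add_le _ _) (max_lt h1 h2)

theorem dlyQ_monic {p : ℕ} (hp : 2 ≤ p) (ϖ η b : F) : (dlyQ p ϖ η b).Monic := by
  rw [dlyQ_eq]
  exact monic_X_pow_add (dlyQ_lower_degree_lt hp ϖ η b)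

theorem dlyQ_natDegree {p : ℕ} (hp : 2 ≤ p) (ϖ η b : F) : (dlyQ p ϖ η b).natDegree = p := by
  rw [dlyQ_eq, natDegree_add_eq_left_of_degree_lt, natDegree_X_pow]
  rw [degree_X_pow]
  exact dlyQ_lower_degree_lt hp ϖ η b

/-- **the defining identity**: `ϖ ^ p · Q = (1 + ϖ X) ^ p - (1 + ϖ ^ p b)` -/
theorem dlyQ_spec {p : ℕ} (hp : p.Prime) {ϖ η : F} (hη : (p : F) = η * ϖ ^ (p - 1)) (b : F) :
    C (ϖ ^ p) * dlyQ p ϖ η b = (1 + C ϖ * X) ^ p - C (1 + ϖ ^ p * b) := by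
  obtain ⟨m, rfl⟩ : ∃ m, p = m + 2 := ⟨p - 2, by have := hp.two_le; omega⟩
  have hsum : (1 + C ϖ * X : F[X]) ^ (m + 2) =
      ∑ k ∈ Finset.range (m + 2 + 1), (C ϖ * X) ^ k * ((m + 2).choose k : F[X]) := by
    rw [add_comm, add_pow]
    refine Finset.sum_congr rfl fun k _ => ?_
    rw [one_pow, mul_one]
  rw [hsum, Finset.sum_range_succ, Finset.sum_range_succ', Finset.sum_range_succ']
  simp only [pow_zero, Nat.choose_zero_right, Nat.cast_one, mul_one, zero_add, pow_one,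
    Nat.choose_one_right, Nat.choose_self]
  unfold dlyQ dlyR
  simp only [Nat.add_sub_cancel]
  rw [mul_sub, mul_add, mul_add, Finset.mul_sum, Finset.mul_sum]
  have hmid : ∀ k ∈ Finset.range m,
      C (ϖ ^ (m + 2)) * (C ϖ * (C ((((m + 2).choose (k + 2) / (m + 2) : ℕ) : F) * η * ϖ ^ k) *
        X ^ (k + 2))) = (C ϖ * X) ^ (k + 1 + 1) * (((m + 2).choose (k + 1 + 1) : ℕ) : F[X]) := by
    intro k hk
    rw [Finset.mem_range] at hk
    have hdvd : (m + 2) ∣ (m + 2).choose (k + 2) :=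
      hp.dvd_choose_self (by omega) (by omega)
    obtain ⟨c, hc⟩ := hdvd
    have hc' : (m + 2).choose (k + 2) / (m + 2) = c := by
      rw [hc]; exact Nat.mul_div_cancel_left c (by omega)
    rw [hc', show k + 1 + 1 = k + 2 from rfl, hc]
    have hη' : ((m + 2 : ℕ) : F) = η * ϖ ^ (m + 1) := by
      rw [hη]; rfl
    rw [Nat.cast_mul, ← C_eq_natCast, ← C_eq_natCast, mul_pow, ← C_pow]
    have : ((m + 2 : ℕ) : F) = η * ϖ ^ (m + 1) := hη'
    rw [this]
    simp only [C_mul, C_pow]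
    ring
  rw [Finset.sum_congr rfl hmid]
  have hη' : ((m + 2 : ℕ) : F[X]) = C η * C ϖ ^ (m + 1) := by
    rw [← C_eq_natCast, hη, C_mul, C_pow]; rfl
  rw [hη']
  simp only [C_add, C_mul, C_pow, C_1, mul_pow]
  ring

/-- the derivative: `Q' = η + ϖ · (η ϖ ^ (p - 2) X ^ (p - 1) + R')` -/
theorem dlyQ_derivative {p : ℕ} (hp : p.Prime) {ϖ η : F} (hη : (p : F) = η * ϖ ^ (p - 1))
    (b : F) : derivative (dlyQ p ϖ η b) =
      C η + C ϖ * (C (η * ϖ ^ (p - 2)) * X ^ (p - 1) + derivative (dlyR p ϖ η)) := by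
  unfold dlyQ
  rw [derivative_sub, derivative_add, derivative_add, derivative_X_pow, derivative_C_mul,
    derivative_X, derivative_C_mul, derivative_C, mul_one, sub_zero]
  have h1 : (C (p : F) : F[X]) = C ϖ * C (η * ϖ ^ (p - 2)) := by
    rw [hη, ← C_mul]
    congr 1
    have : p - 1 = (p - 2) + 1 := by have := hp.two_le; omega
    rw [this, pow_succ]; ring
  rw [h1]
  ring

/-! ### coefficients in a subring -/

theorem dlyR_mem_pol {p : ℕ} {R : Subring F} {ϖ η : F} (hϖ : ϖ ∈ R) (hη : η ∈ R) :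
    dlyR p ϖ η ∈ dltPol R := by
  unfold dlyR
  refine Subsemiring.sum_mem _ fun k _ => ?_
  refine Subsemiring.mul_mem _ (dlt_pol_C ?_) (Subsemiring.pow_mem _ dlt_pol_X _)
  exact R.mul_mem (R.mul_mem (natCast_mem R _) hη) (R.pow_mem hϖ _)

theorem dlyQ_mem_pol {p : ℕ} {R : Subring F} {ϖ η b : F} (hϖ : ϖ ∈ R) (hη : η ∈ R)
    (hb : b ∈ R) : dlyQ p ϖ η b ∈ dltPol R := by
  unfold dlyQ
  refine dlt_pol_sub ?_ (dlt_pol_C hb)
  refine Subsemiring.add_mem _ (Subsemiring.add_mem _ (Subsemiring.pow_mem _ dlt_pol_X _) ?_) ?_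
  · exact Subsemiring.mul_mem _ (dlt_pol_C hη) dlt_pol_X
  · exact Subsemiring.mul_mem _ (dlt_pol_C hϖ) (dlyR_mem_pol hϖ hη)

end Fermat.Agent.Delta
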