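/-
DELTA / COVER-ABS (helper8), part 3: **the Kummer datum and its étale generator**.

`K : DlyKummer p F F'` = a cyclic extension `F' = F(y)`, `y ^ p = 1 + ϖ ^ p b` (not a `p`-th power
in `F`), with `p = η ϖ ^ (p - 1)` (Artin–Schreier–Kummer normal form, board DELTA (S-iii)).

* `K.u = (y - 1) / ϖ`, `K.Q = dlyQ p ϖ η b`, `K.aeval_u_Q : Q(u) = 0`, `K.gen_u : F' = F[u]`,
  `K.Q_irreducible`;
* `K.gen' : DltGen F F'` with the EXPLICIT Bezout relation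
  `(-ϖ ^ p / a) Q + (η⁻¹ / a) (1 + ϖ X) Q' = 1`, `a = 1 + ϖ ^ p b`; `K.gen'_intOver A` for any subring
  `A ∋ ϖ, η, η⁻¹, b, a⁻¹`, `K.gen'_intOver_local A` for a LOCAL subring with `ϖ ∈ 𝔪_A`, `η ∈ A^×`,
  `b ∈ A`;
* `K.conj ζ j = (ζ ^ j y - 1) / ϖ` the conjugates of `u`, `K.Q_map_eq_prod : Q = ∏_j (X - u_j)`.
-/
import Fermat.Agent.Lib.Delta.Cover.Poly

set_option autoImplicit false
set_option linter.style.haveILetI false
set_option linter.unusedSectionVars false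
set_option linter.unusedVariables false

namespace Fermat.Agent.Delta

open Polynomial

/-- **the Kummer datum** in Artin–Schreier–Kummer normal form -/
structure DlyKummer (p : ℕ) (F F' : Type*) [Field F] [Field F'] [Algebra F F'] where
  hp : p.Prime
  /-- the uniformiser -/
  ϖ : F
  /-- the unit `p / ϖ ^ (p - 1)` -/
  η : F
  /-- the Artin–Schreier coefficient -/
  b : F
  ϖ_ne : ϖ ≠ 0
  η_ne : η ≠ 0
  hη : (p : F) = η * ϖ ^ (p - 1)
  /-- the Kummer generator -/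
  y : F'
  hy : y ^ p = algebraMap F F' (1 + ϖ ^ p * b)
  gen : ∀ f : F', ∃ T : F[X], aeval y T = f
  npow : ∀ c : F, c ^ p ≠ 1 + ϖ ^ p * b

namespace DlyKummer

variable {p : ℕ} {F F' : Type*} [Field F] [Field F'] [Algebra F F'] (K : DlyKummer p F F')

/-- `ϖ` in `F'` -/
abbrev ϖ' : F' := algebraMap F F' K.ϖ

theorem ϖ'_ne : K.ϖ' ≠ 0 := by
  rw [ϖ', Ne, _root_.map_eq_zero]; exact K.ϖ_ne

/-- the Artin–Schreier generator `u = (y - 1) / ϖ` -/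
noncomputable def u : F' := (K.y - 1) / K.ϖ'

theorem y_eq : K.y = 1 + K.ϖ' * K.u := by
  have := K.ϖ'_ne
  rw [u]; field_simp; ring

/-- the Artin–Schreier–Kummer polynomial -/
noncomputable abbrev Q : F[X] := dlyQ p K.ϖ K.η K.b

theorem Q_monic : K.Q.Monic := dlyQ_monic K.hp.two_le _ _ _

theorem Q_natDegree : K.Q.natDegree = p := dlyQ_natDegree K.hp.two_le _ _ _

theorem aeval_one_add (x : F') : aeval x (1 + C K.ϖ * X : F[X]) = 1 + K.ϖ' * x := by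
  rw [map_add, map_one, map_mul, aeval_C, aeval_X]

/-- `Q(x) = ((1 + ϖ x) ^ p - y ^ p) / ϖ ^ p` -/
theorem aeval_Q (x : F') : K.ϖ' ^ p * aeval x K.Q = (1 + K.ϖ' * x) ^ p - K.y ^ p := by
  have h := congrArg (aeval x) (dlyQ_spec K.hp K.hη K.b)
  rw [map_mul, aeval_C, map_sub, aeval_C, ← K.hy, map_pow (aeval x), K.aeval_one_add,
    map_pow (algebraMap F F')] at h
  exact h

theorem aeval_u_Q : aeval K.u K.Q = 0 := by
  have h := K.aeval_Q K.u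
  rw [← K.y_eq, sub_self] at h
  exact (mul_eq_zero.mp h).resolve_left (pow_ne_zero _ K.ϖ'_ne)

/-- `F' = F[u]` -/
theorem gen_u (f : F') : ∃ T : F[X], aeval K.u T = f := by
  obtain ⟨T, rfl⟩ := K.gen f
  refine ⟨T.comp (1 + C K.ϖ * X), ?_⟩
  rw [aeval_comp, K.aeval_one_add, ← K.y_eq]

/-- `ϖ ^ p Q = (X ^ p - a) ∘ (1 + ϖ X)` -/
theorem Q_comp : C (K.ϖ ^ p) * K.Q = (X ^ p - C (1 + K.ϖ ^ p * K.b) : F[X]).comp (C K.ϖ * X + C 1) := by
  rw [dlyQ_spec K.hp K.hη K.b, sub_comp, pow_comp, X_comp, C_comp, C_1, add_comm]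

theorem Q_irreducible : Irreducible K.Q := by
  have h1 : Irreducible (X ^ p - C (1 + K.ϖ ^ p * K.b) : F[X]) :=
    X_pow_sub_C_irreducible_of_prime K.hp K.npow
  haveI : Invertible K.ϖ := invertibleOfNonzero K.ϖ_ne
  have h2 : Irreducible ((algEquivCMulXAddC K.ϖ 1) (X ^ p - C (1 + K.ϖ ^ p * K.b) : F[X])) :=
    (MulEquiv.irreducible_iff (algEquivCMulXAddC K.ϖ (1 : F)).toMulEquiv).mpr h1
  rw [algEquivCMulXAddC_apply] at h2
  have h3 : (aeval (C K.ϖ * X + C 1 : F[X])) (X ^ p - C (1 + K.ϖ ^ p * K.b) : F[X]) =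
      C (K.ϖ ^ p) * K.Q := by
    rw [K.Q_comp, comp_eq_aeval]
  rw [h3] at h2
  have hu : IsUnit (C (K.ϖ ^ p) : F[X]) :=
    isUnit_C.mpr (isUnit_iff_ne_zero.mpr (pow_ne_zero _ K.ϖ_ne))
  exact (irreducible_isUnit_mul hu).mp h2

/-! ### the explicit Bezout relation -/

/-- `a = 1 + ϖ ^ p b` -/
abbrev a : F := 1 + K.ϖ ^ p * K.b

theorem a_ne : K.a ≠ 0 := by
  intro h
  exact K.npow 0 (by rw [zero_pow K.hp.ne_zero]; exact h.symm)

/-- `Q' = η (1 + ϖ X) ^ (p - 1)` -/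
theorem derivative_Q : derivative K.Q = C K.η * (1 + C K.ϖ * X) ^ (p - 1) := by
  have h := congrArg derivative (dlyQ_spec K.hp K.hη K.b)
  rw [derivative_mul, derivative_C, zero_mul, zero_add, derivative_sub, derivative_C, sub_zero,
    derivative_pow, derivative_add, derivative_one, zero_add, derivative_mul, derivative_C,
    zero_mul, zero_add, derivative_X, mul_one] at h
  have h1 : (C (p : F) : F[X]) = C (K.ϖ ^ (p - 1)) * C K.η := by
    rw [← C_mul, K.hη, mul_comm]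
  have h2 : (C (K.ϖ ^ p) : F[X]) = C (K.ϖ ^ (p - 1)) * C K.ϖ := by
    rw [← C_mul, ← pow_succ, Nat.sub_add_cancel K.hp.one_le]
  have h0 : (C (K.ϖ ^ p) : F[X]) ≠ 0 := by
    rw [Ne, C_eq_zero]; exact pow_ne_zero _ K.ϖ_ne
  apply mul_left_cancel₀ h0
  rw [h, h1, h2]
  ring

/-- **the explicit Bezout relation** `(-ϖ ^ p / a) Q + (η⁻¹ / a) (1 + ϖ X) Q' = 1` -/
theorem bezout : (-C (K.ϖ ^ p / K.a)) * K.Q +
    (C (K.η⁻¹ / K.a) * (1 + C K.ϖ * X)) * derivative K.Q = 1 := by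
  have h1 : (1 + C K.ϖ * X : F[X]) ^ p = C (K.ϖ ^ p) * K.Q + C K.a := by
    rw [dlyQ_spec K.hp K.hη K.b]; ring
  have h2 : (1 + C K.ϖ * X : F[X]) * (1 + C K.ϖ * X) ^ (p - 1) = (1 + C K.ϖ * X) ^ p := by
    rw [← pow_succ', Nat.sub_add_cancel K.hp.one_le]
  rw [K.derivative_Q]
  have h3 : C (K.η⁻¹ / K.a) * (1 + C K.ϖ * X) * (C K.η * (1 + C K.ϖ * X) ^ (p - 1)) =
      C (K.η⁻¹ / K.a * K.η) * ((1 + C K.ϖ * X) * (1 + C K.ϖ * X) ^ (p - 1)) := by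
    rw [C_mul]; ring
  rw [h3, h2, h1]
  have h4 : K.η⁻¹ / K.a * K.η = K.a⁻¹ := by
    have := K.η_ne; have := K.a_ne
    field_simp
  rw [h4, mul_add, ← C_mul, inv_mul_cancel₀ K.a_ne, C_1, div_eq_mul_inv, C_mul]
  ring

/-- **the étale generator** attached to a Kummer datum -/
noncomputable def gen' : DltGen F F' where
  u := K.u
  Q := K.Q
  monic := K.Q_monic
  irr := K.Q_irreducible
  root := K.aeval_u_Q
  gen := K.gen_u
  G := -C (K.ϖ ^ p / K.a)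
  H := C (K.η⁻¹ / K.a) * (1 + C K.ϖ * X)
  bez := K.bezout

@[simp] theorem gen'_u : K.gen'.u = K.u := rfl

@[simp] theorem gen'_Q : K.gen'.Q = K.Q := rfl

/-- integrality over a subring containing `ϖ, η, η⁻¹, b, a⁻¹` -/
theorem gen'_intOver (A : Subring F) (hϖA : K.ϖ ∈ A) (hηA : K.η ∈ A) (hηi : K.η⁻¹ ∈ A)
    (hbA : K.b ∈ A) (hai : K.a⁻¹ ∈ A) : K.gen'.IntOver A := by
  refine ⟨dlyQ_mem_pol hϖA hηA hbA, dlt_pol_neg (dlt_pol_C ?_), ?_⟩
  · rw [div_eq_mul_inv]; exact A.mul_mem (A.pow_mem hϖA _) hai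
  · refine Subsemiring.mul_mem _ (dlt_pol_C ?_) ?_
    · rw [div_eq_mul_inv]; exact A.mul_mem hηi hai
    · exact Subsemiring.add_mem _ (Subsemiring.one_mem _)
        (Subsemiring.mul_mem _ (dlt_pol_C hϖA) dlt_pol_X)

/-- `a = 1 + ϖ ^ p b` is a unit of a local ring with `ϖ ∈ 𝔪_A`, `b ∈ A` -/
theorem a_inv_mem (A : Subring F) [IsLocalRing A] (hϖA : K.ϖ ∈ A)
    (hϖm : (⟨K.ϖ, hϖA⟩ : A) ∈ IsLocalRing.maximalIdeal A) (hbA : K.b ∈ A) : K.a⁻¹ ∈ A := by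
  have hmem : (⟨K.ϖ, hϖA⟩ : A) ^ p * ⟨K.b, hbA⟩ ∈ IsLocalRing.maximalIdeal A :=
    Ideal.mul_mem_right _ _ (Ideal.pow_mem_of_mem _ hϖm p K.hp.pos)
  have hu : IsUnit (1 + (⟨K.ϖ, hϖA⟩ : A) ^ p * ⟨K.b, hbA⟩) := by
    by_contra hnu
    have h1 : (1 + (⟨K.ϖ, hϖA⟩ : A) ^ p * ⟨K.b, hbA⟩) ∈ IsLocalRing.maximalIdeal A :=
      (IsLocalRing.mem_maximalIdeal _).mpr hnu
    have h2 := Ideal.sub_mem _ h1 hmem
    rw [add_sub_cancel_right] at h2
    exact (IsLocalRing.maximalIdeal.isMaximal A).ne_top ((Ideal.eq_top_iff_one _).mpr h2)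
  obtain ⟨v, hv⟩ := isUnit_iff_exists_inv.mp hu
  have h3 : K.a * (v : F) = 1 := by
    have := congrArg Subtype.val hv
    simpa using this
  have h4 : K.a⁻¹ = (v : F) := (eq_inv_of_mul_eq_one_right h3).symm
  rw [h4]
  exact v.2

/-- integrality over a local ring with `ϖ ∈ 𝔪_A`, `η ∈ A^×`, `b ∈ A` -/
theorem gen'_intOver_local (A : Subring F) [IsLocalRing A] (hϖA : K.ϖ ∈ A)
    (hϖm : (⟨K.ϖ, hϖA⟩ : A) ∈ IsLocalRing.maximalIdeal A) (hηA : K.η ∈ A) (hηi : K.η⁻¹ ∈ A)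
    (hbA : K.b ∈ A) : K.gen'.IntOver A :=
  K.gen'_intOver A hϖA hηA hηi hbA (K.a_inv_mem A hϖA hϖm hbA)

/-! ### the conjugates of `u` -/

section Conj

variable (ζ : F)

/-- the conjugates `u_j = (ζ ^ j y - 1) / ϖ` of `u` -/
noncomputable def conj (j : ℕ) : F' := (algebraMap F F' ζ ^ j * K.y - 1) / K.ϖ'

theorem conj_zero : K.conj ζ 0 = K.u := by
  rw [conj, pow_zero, one_mul, u]

theorem one_add_conj (j : ℕ) : 1 + K.ϖ' * K.conj ζ j = algebraMap F F' ζ ^ j * K.y := by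
  have := K.ϖ'_ne
  rw [conj]; field_simp; ring

/-- **`Q = ∏_j (X - u_j)` over `F'`** -/
theorem Q_map_eq_prod (hζ : IsPrimitiveRoot ζ p) :
    K.Q.map (algebraMap F F') = ∏ j ∈ Finset.range p, (X - C (K.conj ζ j)) := by
  have hζ' : IsPrimitiveRoot (algebraMap F F' ζ) p :=
    hζ.map_of_injective (algebraMap F F').injective
  have h1 : (X ^ p - C (K.y ^ p) : F'[X]) =
      ∏ j ∈ Finset.range p, (X - C (algebraMap F F' ζ ^ j * K.y)) :=
    X_pow_sub_C_eq_prod hζ' K.hp.pos rfl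
  have h2 := congrArg (Polynomial.map (algebraMap F F')) (dlyQ_spec K.hp K.hη K.b)
  rw [Polynomial.map_mul, Polynomial.map_C, Polynomial.map_sub, Polynomial.map_pow,
    Polynomial.map_add, Polynomial.map_one, Polynomial.map_mul, Polynomial.map_C,
    Polynomial.map_X, Polynomial.map_C, ← K.hy] at h2
  have h3 : ((1 + C K.ϖ' * X : F'[X]) ^ p - C (K.y ^ p)) =
      (X ^ p - C (K.y ^ p) : F'[X]).comp (1 + C K.ϖ' * X) := by
    rw [sub_comp, pow_comp, X_comp, C_comp]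
  rw [h3, h1, prod_comp] at h2
  have h4 : ∀ j ∈ Finset.range p,
      (X - C (algebraMap F F' ζ ^ j * K.y) : F'[X]).comp (1 + C K.ϖ' * X) =
        C K.ϖ' * (X - C (K.conj ζ j)) := by
    intro j _
    rw [sub_comp, X_comp, C_comp, ← K.one_add_conj ζ j, C_add, C_mul, C_1]
    ring
  rw [Finset.prod_congr rfl h4, Finset.prod_mul_distrib, Finset.prod_const, Finset.card_range,
    ← C_pow, map_pow] at h2
  have h5 : (C (K.ϖ' ^ p) : F'[X]) ≠ 0 := by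
    rw [Ne, C_eq_zero]; exact pow_ne_zero _ K.ϖ'_ne
  exact mul_left_cancel₀ h5 h2

/-- `Q(ρ) = ∏_j (ρ - u_j)` -/
theorem eval_Q_eq_prod (hζ : IsPrimitiveRoot ζ p) (ρ : F) :
    algebraMap F F' (eval ρ K.Q) = ∏ j ∈ Finset.range p, (algebraMap F F' ρ - K.conj ζ j) := by
  have h := congrArg (eval (algebraMap F F' ρ)) (K.Q_map_eq_prod ζ hζ)
  rw [eval_map_algebraMap, aeval_algebraMap_apply, eval_prod, coe_aeval_eq_eval] at h
  rw [h]
  refine Finset.prod_congr rfl fun j _ => ?_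
  rw [eval_sub, eval_X, eval_C]

end Conj

end DlyKummer

end Fermat.Agent.Delta
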