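/-
DELTA / COVER-ABS (helper8), part 6: **the cyclic cover** `F' = F(y)`, `y ^ p = Z` (helper2's
(CV1), (CV2), msg 1321).

`C : DlyCover p F F'` = base data `ϖ, η, ζ ∈ F` (`p = η ϖ ^ (p - 1)`, `ζ` a primitive `p`-th root of
unity), `Z ∈ F` not a `p`-th power, `y ∈ F'` with `y ^ p = Z`, `F' = F[y]`, and `τ ∈ Aut(F' / F)`
with `τ y = ζ y`.

* `C.tau_pow_p : τ ^ p = 1`, `C.fixed : τ f = f → f ∈ F`,
  **`C.hnorm : ∀ f, ∃ c : F, ∏ i ∈ range p, (τ ^ i) f = algebraMap F F' c`** (the input `hnorm` of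
  helper2's `dlt_conj`, `dlt_ord_conj`);
* `C.kummer w b hZ hw : DlyKummer p F F'` for a normal form `Z = w ^ p (1 + ϖ ^ p b)`: the Kummer
  datum with generator `y / w`;
* **`C.gen w b hZ hw : DltGen F F'`** (helper2's `dlyGen`): `u = (y / w - 1) / ϖ`, explicit Bezout;
  `C.gen_intOver`, `C.gen_intOver_local`;
* `C.tau_u : τ u = ζ u + (ζ - 1) / ϖ`.
-/
import Fermat.Agent.Lib.Delta.Cover.Gen

set_option autoImplicit false
set_option linter.style.haveILetI false
set_option linter.unusedSectionVars false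
set_option linter.unusedVariables false

namespace Fermat.Agent.Delta

open Polynomial

/-- **the cyclic cover** `F' = F(y)`, `y ^ p = Z`, with its generator `τ` of the Galois group -/
structure DlyCover (p : ℕ) (F F' : Type*) [Field F] [Field F'] [Algebra F F'] where
  hp : p.Prime
  /-- the uniformiser -/
  ϖ : F
  /-- the unit `p / ϖ ^ (p - 1)` -/
  η : F
  /-- the primitive `p`-th root of unity -/
  ζ : F
  ϖ_ne : ϖ ≠ 0
  η_ne : η ≠ 0
  hη : (p : F) = η * ϖ ^ (p - 1)
  hζ : IsPrimitiveRoot ζ p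
  /-- the Kummer function -/
  Z : F
  npow : ∀ c : F, c ^ p ≠ Z
  /-- the Kummer generator -/
  y : F'
  hy : y ^ p = algebraMap F F' Z
  gen : ∀ f : F', ∃ T : F[X], aeval y T = f
  /-- the generator of the Galois group -/
  τ : F' ≃ₐ[F] F'
  hτ : τ y = algebraMap F F' ζ * y

namespace DlyCover

variable {p : ℕ} {F F' : Type*} [Field F] [Field F'] [Algebra F F'] (C : DlyCover p F F')

/-- the Kummer polynomial -/
noncomputable abbrev P₀ : F[X] := X ^ p - Polynomial.C C.Z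

theorem P₀_irreducible : Irreducible C.P₀ := X_pow_sub_C_irreducible_of_prime C.hp C.npow

theorem P₀_monic : C.P₀.Monic := monic_X_pow_sub_C _ C.hp.ne_zero

theorem P₀_natDegree : C.P₀.natDegree = p := natDegree_X_pow_sub_C

theorem aeval_y_P₀ : aeval C.y C.P₀ = 0 := by
  rw [map_sub, map_pow, aeval_X, aeval_C, C.hy, sub_self]

theorem P₀_dvd {T : F[X]} (h : aeval C.y T = 0) : C.P₀ ∣ T := by
  rw [minpoly.eq_of_irreducible_of_monic C.P₀_irreducible C.aeval_y_P₀ C.P₀_monic]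
  exact minpoly.dvd F C.y h

/-- a polynomial of degree `< p` vanishing at `y` is zero -/
theorem eq_zero_of_aeval {T : F[X]} (hT : T.natDegree < p) (h : aeval C.y T = 0) : T = 0 := by
  by_contra h0
  have h1 := natDegree_le_of_dvd (C.P₀_dvd h) h0
  rw [C.P₀_natDegree] at h1
  omega

/-- every element is a polynomial of degree `< p` in `y` -/
theorem exists_rep (f : F') : ∃ T : F[X], T.natDegree < p ∧ aeval C.y T = f := by
  obtain ⟨T, rfl⟩ := C.gen f
  refine ⟨T %ₘ C.P₀, ?_, ?_⟩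
  · have h1 := natDegree_modByMonic_lt T C.P₀_monic (by
      intro h
      have := C.P₀_natDegree
      rw [h, natDegree_one] at this
      exact C.hp.ne_zero this.symm)
    rwa [C.P₀_natDegree] at h1
  · conv_rhs => rw [← modByMonic_add_div T C.P₀]
    rw [map_add, map_mul, C.aeval_y_P₀, zero_mul, add_zero]

theorem y_ne_zero : C.y ≠ 0 := by
  intro h
  have h1 := C.hy
  rw [h, zero_pow C.hp.ne_zero] at h1
  have h2 : C.Z = 0 := by
    have := h1.symm
    rwa [_root_.map_eq_zero] at this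
  exact C.npow 0 (by rw [zero_pow C.hp.ne_zero, h2])

/-- `τ` acts on polynomials in `y` by `T(y) ↦ T(ζ y)` -/
theorem tau_aeval (T : F[X]) :
    C.τ (aeval C.y T) = aeval C.y (T.comp (Polynomial.C C.ζ * X)) := by
  rw [aeval_comp, map_mul, aeval_C, aeval_X, ← C.hτ, ← aeval_algHom_apply]

theorem tau_pow_y (j : ℕ) : (C.τ ^ j) C.y = algebraMap F F' C.ζ ^ j * C.y := by
  induction j with
  | zero => rw [pow_zero, AlgEquiv.one_apply, pow_zero, one_mul]
  | succ j ih =>
    rw [pow_succ, AlgEquiv.mul_apply, C.hτ, map_mul, AlgEquiv.commutes, ih, pow_succ]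
    ring

/-- `τ ^ p = 1` -/
theorem tau_pow_p : C.τ ^ p = 1 := by
  apply AlgEquiv.ext
  intro f
  obtain ⟨T, rfl⟩ := C.gen f
  rw [AlgEquiv.one_apply]
  have h1 : (C.τ ^ p) C.y = C.y := by
    rw [C.tau_pow_y, ← map_pow, C.hζ.pow_eq_one, map_one, one_mul]
  have h2 := aeval_algHom_apply ((C.τ ^ p : F' ≃ₐ[F] F') : F' →ₐ[F] F') C.y T
  rw [AlgEquiv.coe_toAlgHom, h1] at h2
  exact h2.symm

/-- **the fixed field of `τ` is `F`** -/
theorem fixed {f : F'} (hf : C.τ f = f) : ∃ c : F, f = algebraMap F F' c := by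
  obtain ⟨T, hT, rfl⟩ := C.exists_rep f
  rw [C.tau_aeval] at hf
  have hdeg : (T.comp (Polynomial.C C.ζ * X) - T).natDegree < p := by
    refine lt_of_le_of_lt (natDegree_sub_le _ _) (max_lt ?_ hT)
    refine lt_of_le_of_lt natDegree_comp_le ?_
    have h1 : (Polynomial.C C.ζ * X : F[X]).natDegree ≤ 1 :=
      (natDegree_C_mul_le _ _).trans natDegree_X_le
    calc T.natDegree * (Polynomial.C C.ζ * X : F[X]).natDegree ≤ T.natDegree * 1 :=
          Nat.mul_le_mul_left _ h1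
      _ = T.natDegree := mul_one _
      _ < p := hT
  have h0 : T.comp (Polynomial.C C.ζ * X) - T = 0 :=
    C.eq_zero_of_aeval hdeg (by rw [map_sub, hf, sub_self])
  have hcoeff : ∀ i : ℕ, i ≠ 0 → T.coeff i = 0 := by
    intro i hi
    by_cases hip : i < p
    · have h1 := congrArg (fun S : F[X] => S.coeff i) h0
      simp only [coeff_sub, comp_C_mul_X_coeff, coeff_zero] at h1
      have h2 : T.coeff i * (C.ζ ^ i - 1) = 0 := by rw [mul_sub, mul_one]; exact h1
      rcases mul_eq_zero.mp h2 with h3 | h3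
      · exact h3
      · exfalso
        exact C.hζ.pow_ne_one_of_pos_of_lt hi hip (sub_eq_zero.mp h3)
    · exact coeff_eq_zero_of_natDegree_lt (by omega)
  refine ⟨T.coeff 0, ?_⟩
  have hTC : T = Polynomial.C (T.coeff 0) := by
    ext i
    rcases eq_or_ne i 0 with rfl | hi
    · rw [coeff_C_zero]
    · rw [hcoeff i hi, coeff_C_of_ne_zero hi]
  conv_lhs => rw [hTC]
  rw [aeval_C]

/-- **the norm lands in `F`** (the hypothesis `hnorm` of `dlt_conj`, `dlt_ord_conj`) -/
theorem hnorm (f : F') : ∃ c : F, ∏ i ∈ Finset.range p, (C.τ ^ i) f = algebraMap F F' c := by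
  rcases eq_or_ne f 0 with rfl | hf
  · refine ⟨0, ?_⟩
    rw [map_zero]
    exact Finset.prod_eq_zero (Finset.mem_range.mpr C.hp.pos) (map_zero _)
  apply C.fixed
  rw [map_prod]
  have h1 : ∀ i ∈ Finset.range p, C.τ ((C.τ ^ i) f) = (C.τ ^ (i + 1)) f := by
    intro i _
    rw [pow_succ', AlgEquiv.mul_apply]
  rw [Finset.prod_congr rfl h1]
  have h2 := Finset.prod_range_succ' (fun i => (C.τ ^ i) f) p
  have h3 := Finset.prod_range_succ (fun i => (C.τ ^ i) f) p
  rw [h2] at h3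
  simp only [C.tau_pow_p, pow_zero, AlgEquiv.one_apply] at h3
  exact mul_right_cancel₀ hf h3

/-! ### the normal form `Z = w ^ p (1 + ϖ ^ p b)` and the étale generator -/

section Normal

variable (w b : F) (hZ : C.Z = w ^ p * (1 + C.ϖ ^ p * b)) (hw : w ≠ 0)

/-- the Kummer datum of a normal form `Z = w ^ p (1 + ϖ ^ p b)`, with generator `y / w` -/
noncomputable def kummer : DlyKummer p F F' where
  hp := C.hp
  ϖ := C.ϖ
  η := C.η
  b := b
  ϖ_ne := C.ϖ_ne
  η_ne := C.η_ne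
  hη := C.hη
  y := C.y / algebraMap F F' w
  hy := by
    have hw' : algebraMap F F' w ≠ 0 := (_root_.map_ne_zero _).mpr hw
    rw [div_pow, C.hy, hZ, map_mul, map_pow]
    field_simp
  gen := by
    intro f
    obtain ⟨T, rfl⟩ := C.gen f
    have hw' : algebraMap F F' w ≠ 0 := (_root_.map_ne_zero _).mpr hw
    refine ⟨T.comp (Polynomial.C w * X), ?_⟩
    rw [aeval_comp, map_mul, aeval_C, aeval_X, mul_div_cancel₀ _ hw']
  npow := by
    intro c hc
    exact C.npow (w * c) (by rw [mul_pow, hc, hZ])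

@[simp] theorem kummer_ϖ : (C.kummer w b hZ hw).ϖ = C.ϖ := rfl

@[simp] theorem kummer_η : (C.kummer w b hZ hw).η = C.η := rfl

@[simp] theorem kummer_b : (C.kummer w b hZ hw).b = b := rfl

@[simp] theorem kummer_y : (C.kummer w b hZ hw).y = C.y / algebraMap F F' w := rfl

theorem kummer_tau :
    C.τ (C.kummer w b hZ hw).y = algebraMap F F' C.ζ * (C.kummer w b hZ hw).y := by
  rw [kummer_y, map_div₀, C.hτ, AlgEquiv.commutes, mul_div_assoc]

/-- **the étale generator of a normal form** (helper2's `dlyGen`): `u = (y / w - 1) / ϖ`,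
`Q = dlyQ p ϖ η b`, explicit Bezout coefficients -/
noncomputable def toGen : DltGen F F' := (C.kummer w b hZ hw).gen'

theorem toGen_u :
    (C.toGen w b hZ hw).u = (C.y / algebraMap F F' w - 1) / algebraMap F F' C.ϖ := rfl

theorem toGen_Q : (C.toGen w b hZ hw).Q = dlyQ p C.ϖ C.η b := rfl

/-- integrality over a subring containing `ϖ, η, η⁻¹, b, (1 + ϖ ^ p b)⁻¹` -/
theorem toGen_intOver (A : Subring F) (hϖA : C.ϖ ∈ A) (hηA : C.η ∈ A) (hηi : C.η⁻¹ ∈ A)
    (hbA : b ∈ A) (hai : (1 + C.ϖ ^ p * b)⁻¹ ∈ A) : (C.toGen w b hZ hw).IntOver A :=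
  (C.kummer w b hZ hw).gen'_intOver A hϖA hηA hηi hbA hai

/-- integrality over a LOCAL subring with `ϖ ∈ 𝔪_A`, `η ∈ A^×`, `b ∈ A` -/
theorem toGen_intOver_local (A : Subring F) [IsLocalRing A] (hϖA : C.ϖ ∈ A)
    (hϖm : (⟨C.ϖ, hϖA⟩ : A) ∈ IsLocalRing.maximalIdeal A) (hηA : C.η ∈ A) (hηi : C.η⁻¹ ∈ A)
    (hbA : b ∈ A) : (C.toGen w b hZ hw).IntOver A :=
  (C.kummer w b hZ hw).gen'_intOver_local A hϖA hϖm hηA hηi hbA

/-- the action of `τ` on the étale generator: `τ u = ζ u + (ζ - 1) / ϖ` -/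
theorem tau_u : C.τ (C.toGen w b hZ hw).u = algebraMap F F' C.ζ * (C.toGen w b hZ hw).u +
    algebraMap F F' ((C.ζ - 1) / C.ϖ) := by
  have hϖ' : algebraMap F F' C.ϖ ≠ 0 := (_root_.map_ne_zero _).mpr C.ϖ_ne
  have hw' : algebraMap F F' w ≠ 0 := (_root_.map_ne_zero _).mpr hw
  rw [toGen_u, map_div₀, map_sub, map_one, map_div₀, C.hτ, AlgEquiv.commutes, AlgEquiv.commutes,
    map_div₀, map_sub, map_one]
  field_simp
  ring

end Normal

end DlyCover

end Fermat.Agent.Delta
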