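/-
DELTA / COVER-ABS (helper8), part 7: **the model `F' = F[X] ⧸ (X ^ p - Z)` of the cyclic cover and
its base change** (helper2's (CV1) existence and (CV3), msg 1321).

* `DlyRoot p Z = AdjoinRoot (X ^ p - C Z)` (a field when `X ^ p - C Z` is irreducible);
* `dlyRootCover hp ϖ η ζ Z … : DlyCover p F (DlyRoot p Z)` with `y = root`, `τ y = ζ y`;
* `dly_irreducible_of_npow`, `dly_npow_of_irreducible`;
* base change along `ιF : F →+* F₂`: `dlyRootMap ιF Z : DlyRoot p Z →+* DlyRoot p (ιF Z)` with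
  `dlyRootMap_algebraMap` (`ιF' ∘ algebraMap = algebraMap ∘ ιF`), `dlyRootMap_y` (`ιF' y = y₂`) and
  **`dlyRootMap_u`** : `ιF' u = u₂` for the étale generators of the normal forms `(w, b)` and
  `(ιF w, ιF b)` — literally the hypotheses `hsq`, `hu` of `dlq_core_node`.
-/
import Fermat.Agent.Lib.Delta.Cover.Cover

set_option autoImplicit false
set_option linter.style.haveILetI false
set_option linter.unusedSectionVars false
set_option linter.unusedVariables false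

namespace Fermat.Agent.Delta

open Polynomial

section Model

variable {F : Type*} [Field F]

theorem dly_irreducible_of_npow {p : ℕ} (hp : p.Prime) {Z : F} (h : ∀ c : F, c ^ p ≠ Z) :
    Irreducible (X ^ p - C Z : F[X]) := X_pow_sub_C_irreducible_of_prime hp h

theorem dly_npow_of_irreducible {p : ℕ} (hp : p.Prime) {Z : F}
    (h : Irreducible (X ^ p - C Z : F[X])) : ∀ c : F, c ^ p ≠ Z := by
  intro c hc
  have hroot : (X ^ p - C Z : F[X]).IsRoot c := by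
    rw [IsRoot.def, eval_sub, eval_pow, eval_X, eval_C, hc, sub_self]
  have h1 := degree_eq_one_of_irreducible_of_root h hroot
  rw [degree_X_pow_sub_C hp.pos] at h1
  have h2 : p = 1 := by exact_mod_cast h1
  exact hp.one_lt.ne' h2

/-- the model of the cyclic cover -/
abbrev DlyRoot (p : ℕ) (Z : F) : Type _ := AdjoinRoot (X ^ p - C Z : F[X])

variable (p : ℕ) (Z : F) [hirr : Fact (Irreducible (X ^ p - C Z : F[X]))]

/-- **the cyclic cover** `F[X] ⧸ (X ^ p - Z)` -/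
noncomputable def dlyRootCover (hp : p.Prime) (ϖ η ζ : F) (ϖ_ne : ϖ ≠ 0) (η_ne : η ≠ 0)
    (hη : (p : F) = η * ϖ ^ (p - 1)) (hζ : IsPrimitiveRoot ζ p) : DlyCover p F (DlyRoot p Z) :=
  haveI : NeZero p := ⟨hp.ne_zero⟩
  { hp := hp
    ϖ := ϖ
    η := η
    ζ := ζ
    ϖ_ne := ϖ_ne
    η_ne := η_ne
    hη := hη
    hζ := hζ
    Z := Z
    npow := dly_npow_of_irreducible hp hirr.out
    y := AdjoinRoot.root _
    hy := by
      have := AdjoinRoot.eval₂_root (X ^ p - C Z : F[X])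
      rw [eval₂_sub, eval₂_pow, eval₂_X, eval₂_C, sub_eq_zero] at this
      exact this
    gen := by
      intro f
      obtain ⟨T, rfl⟩ := AdjoinRoot.mk_surjective f
      exact ⟨T, AdjoinRoot.aeval_eq T⟩
    τ := autAdjoinRootXPowSubC p Z (rootsOfUnity.mkOfPowEq ζ hζ.pow_eq_one)
    hτ := by
      rw [autAdjoinRootXPowSubC_root, rootsOfUnity.coe_mkOfPowEq, Algebra.smul_def] }

@[simp] theorem dlyRootCover_y (hp : p.Prime) (ϖ η ζ : F) (ϖ_ne : ϖ ≠ 0) (η_ne : η ≠ 0)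
    (hη : (p : F) = η * ϖ ^ (p - 1)) (hζ : IsPrimitiveRoot ζ p) :
    (dlyRootCover p Z hp ϖ η ζ ϖ_ne η_ne hη hζ).y = AdjoinRoot.root _ := rfl

@[simp] theorem dlyRootCover_Z (hp : p.Prime) (ϖ η ζ : F) (ϖ_ne : ϖ ≠ 0) (η_ne : η ≠ 0)
    (hη : (p : F) = η * ϖ ^ (p - 1)) (hζ : IsPrimitiveRoot ζ p) :
    (dlyRootCover p Z hp ϖ η ζ ϖ_ne η_ne hη hζ).Z = Z := rfl

@[simp] theorem dlyRootCover_ϖ (hp : p.Prime) (ϖ η ζ : F) (ϖ_ne : ϖ ≠ 0) (η_ne : η ≠ 0)
    (hη : (p : F) = η * ϖ ^ (p - 1)) (hζ : IsPrimitiveRoot ζ p) :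
    (dlyRootCover p Z hp ϖ η ζ ϖ_ne η_ne hη hζ).ϖ = ϖ := rfl

end Model

section BaseChange

variable {F F₂ : Type*} [Field F] [Field F₂] (p : ℕ) (ιF : F →+* F₂) (Z : F)

/-- **base change of the cyclic cover** -/
noncomputable def dlyRootMap : DlyRoot p Z →+* DlyRoot p (ιF Z) :=
  AdjoinRoot.map ιF _ _ (by
    rw [Polynomial.map_sub, Polynomial.map_pow, Polynomial.map_X, Polynomial.map_C])

theorem dlyRootMap_algebraMap (f : F) :
    dlyRootMap p ιF Z (algebraMap F (DlyRoot p Z) f) =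
      algebraMap F₂ (DlyRoot p (ιF Z)) (ιF f) := by
  rw [AdjoinRoot.algebraMap_eq, AdjoinRoot.algebraMap_eq, dlyRootMap, AdjoinRoot.map_of]

theorem dlyRootMap_root :
    dlyRootMap p ιF Z (AdjoinRoot.root _) = AdjoinRoot.root _ := by
  rw [dlyRootMap, AdjoinRoot.map_root]

end BaseChange

section BaseChangeGen

variable {p : ℕ} {F F₂ F' F'₂ : Type*} [Field F] [Field F₂] [Field F'] [Field F'₂]
  [Algebra F F'] [Algebra F₂ F'₂] (C₁ : DlyCover p F F') (C₂ : DlyCover p F₂ F'₂)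
  (ιF : F →+* F₂) (ιF' : F' →+* F'₂)
  (hsq : ∀ f : F, ιF' (algebraMap F F' f) = algebraMap F₂ F'₂ (ιF f))
  (hy : ιF' C₁.y = C₂.y) (hϖ : ιF C₁.ϖ = C₂.ϖ)

include hsq hy hϖ in
/-- **the étale generators of corresponding normal forms correspond** (the hypothesis `hu` of
`dlq_core_node`) -/
theorem dly_map_u (w b : F) (hZ : C₁.Z = w ^ p * (1 + C₁.ϖ ^ p * b)) (hw : w ≠ 0)
    (hZ₂ : C₂.Z = ιF w ^ p * (1 + C₂.ϖ ^ p * ιF b)) :
    ιF' (C₁.toGen w b hZ hw).u =
      (C₂.toGen (ιF w) (ιF b) hZ₂ ((_root_.map_ne_zero ιF).mpr hw)).u := by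
  rw [DlyCover.toGen_u, DlyCover.toGen_u, map_div₀, map_sub, map_one, map_div₀, hy, hsq, hsq, hϖ]

end BaseChangeGen

end Fermat.Agent.Delta
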