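/-
DELTA / COVER-ABS (helper8), part 12: **descent of fixed elements of the cover** (helper4's request,
msg 1328 (2)).

Two levels `ιF : F₁ →+* F₂` (`F₂` the big field, e.g. the function field over `Qb`), covers
`C₁ : DlyCover p F₁ F'₁`, `C₂ : DlyCover p F₂ F'₂` with `ιF' : F'₁ →+* F'₂`, `ιF' y₁ = y₂`, and a
family of ring endomorphisms `σ g` of `F₂`, `σ' g` of `F'₂` (`g ∈ G`, any index type: a group acting
semilinearly) with `σ' g ∘ algebraMap = algebraMap ∘ σ g` and `σ' g y₂ = y₂`.  If the elements of `F₂`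
fixed by all `σ g` come from `F₁`, then the elements of `F'₂` fixed by all `σ' g` come from `F'₁`:

* `C.rep_unique`     : the coordinates `T` (`natDegree T < p`, `aeval y T = z`) are unique;
* **`dly_descent`**  : `(∀ g, σ' g z = z) → ∃ z₁ : F'₁, ιF' z₁ = z`;
* `dly_descent_coeff`: more precisely `z = aeval y₂ (T₁.map ιF)` with `T₁ : F₁[X]`, `natDegree T₁ < p`;
* the action on the model: `dlyRootAct p g Z (hg : g Z = Z) : DlyRoot p Z →+* DlyRoot p Z` with
  `dlyRootAct_algebraMap`, `dlyRootAct_root`, `dlyRootAct_id`, `dlyRootAct_comp`.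
-/
import Fermat.Agent.Lib.Delta.Cover.Root

set_option autoImplicit false
set_option linter.style.haveILetI false
set_option linter.unusedSectionVars false
set_option linter.unusedVariables false

namespace Fermat.Agent.Delta

open Polynomial

section Rep

variable {p : ℕ} {F F' : Type*} [Field F] [Field F'] [Algebra F F'] (C : DlyCover p F F')

/-- uniqueness of the coordinates with respect to `1, y, …, y ^ (p - 1)` -/
theorem DlyCover.rep_unique {T S : F[X]} (hT : T.natDegree < p) (hS : S.natDegree < p)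
    (h : aeval C.y T = aeval C.y S) : T = S := by
  have hdeg : (T - S).natDegree < p :=
    lt_of_le_of_lt (natDegree_sub_le _ _) (max_lt hT hS)
  exact sub_eq_zero.mp (C.eq_zero_of_aeval hdeg (by rw [map_sub, h, sub_self]))

end Rep

section Descent

variable {p : ℕ} {F₁ F₂ F'₁ F'₂ : Type*} [Field F₁] [Field F₂] [Field F'₁] [Field F'₂]
  [Algebra F₁ F'₁] [Algebra F₂ F'₂] (C₁ : DlyCover p F₁ F'₁) (C₂ : DlyCover p F₂ F'₂)
  (ιF : F₁ →+* F₂) (ιF' : F'₁ →+* F'₂)
  (hsq : ∀ f : F₁, ιF' (algebraMap F₁ F'₁ f) = algebraMap F₂ F'₂ (ιF f))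
  (hy : ιF' C₁.y = C₂.y)
  {G : Type*} (σ : G → F₂ →+* F₂) (σ' : G → F'₂ →+* F'₂)
  (hσ : ∀ g (f : F₂), σ' g (algebraMap F₂ F'₂ f) = algebraMap F₂ F'₂ (σ g f))
  (hσy : ∀ g, σ' g C₂.y = C₂.y)
  (hfix : ∀ f : F₂, (∀ g, σ g f = f) → ∃ f₁ : F₁, ιF f₁ = f)

include hsq hy in
/-- `ιF'` in coordinates -/
theorem dly_map_aeval (T₁ : F₁[X]) : ιF' (aeval C₁.y T₁) = aeval C₂.y (T₁.map ιF) := by
  have h : (algebraMap F₂ F'₂).comp ιF = ιF'.comp (algebraMap F₁ F'₁) := by
    ext f
    exact (hsq f).symm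
  rw [map_aeval_eq_aeval_map h, hy]

include hσ hσy in
/-- the semilinear action in coordinates -/
theorem dly_act_aeval (g : G) (T : F₂[X]) : σ' g (aeval C₂.y T) = aeval C₂.y (T.map (σ g)) := by
  have h : (algebraMap F₂ F'₂).comp (σ g) = (σ' g).comp (algebraMap F₂ F'₂) := by
    ext f
    exact (hσ g f).symm
  rw [map_aeval_eq_aeval_map h, hσy]

include hsq hy hσ hσy hfix in
/-- **descent of fixed elements**, in coordinates -/
theorem dly_descent_coeff {z : F'₂} (hz : ∀ g, σ' g z = z) :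
    ∃ T₁ : F₁[X], T₁.natDegree < p ∧ z = aeval C₂.y (T₁.map ιF) ∧ ιF' (aeval C₁.y T₁) = z := by
  obtain ⟨T, hT, rfl⟩ := C₂.exists_rep z
  have hcoeff : ∀ n, T.coeff n ∈ Set.range ιF := by
    intro n
    obtain ⟨f₁, hf₁⟩ := hfix (T.coeff n) (fun g => by
      have h1 := hz g
      rw [dly_act_aeval C₂ σ σ' hσ hσy] at h1
      have h2 : T.map (σ g) = T :=
        C₂.rep_unique (lt_of_le_of_lt natDegree_map_le hT) hT h1
      have h3 := congrArg (fun S : F₂[X] => S.coeff n) h2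
      simpa [coeff_map] using h3)
    exact ⟨f₁, hf₁⟩
  obtain ⟨T₁, hT₁⟩ := (lifts_iff_coeff_lifts T).mpr hcoeff
  replace hT₁ : T₁.map ιF = T := hT₁
  have hdeg : T₁.natDegree < p := by
    rw [← hT₁, natDegree_map] at hT
    exact hT
  refine ⟨T₁, hdeg, by rw [hT₁], ?_⟩
  rw [dly_map_aeval C₁ C₂ ιF ιF' hsq hy, hT₁]

include hsq hy hσ hσy hfix in
/-- **descent of fixed elements**: an element of the big cover fixed by the semilinear action comes
from the small cover -/
theorem dly_descent {z : F'₂} (hz : ∀ g, σ' g z = z) : ∃ z₁ : F'₁, ιF' z₁ = z := by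
  obtain ⟨T₁, -, -, h⟩ := dly_descent_coeff C₁ C₂ ιF ιF' hsq hy σ σ' hσ hσy hfix hz
  exact ⟨_, h⟩

end Descent

section Act

variable {F : Type*} [Field F] (p : ℕ)

/-- the extension of a ring endomorphism `g` of `F` fixing `Z` to the model of the cover, fixing
the Kummer generator -/
noncomputable def dlyRootAct (g : F →+* F) (Z : F) (hg : g Z = Z) : DlyRoot p Z →+* DlyRoot p Z :=
  AdjoinRoot.map g _ _ (by
    rw [Polynomial.map_sub, Polynomial.map_pow, Polynomial.map_X, Polynomial.map_C, hg])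

theorem dlyRootAct_algebraMap (g : F →+* F) (Z : F) (hg : g Z = Z) (f : F) :
    dlyRootAct p g Z hg (algebraMap F (DlyRoot p Z) f) = algebraMap F (DlyRoot p Z) (g f) := by
  rw [AdjoinRoot.algebraMap_eq, dlyRootAct, AdjoinRoot.map_of]

theorem dlyRootAct_root (g : F →+* F) (Z : F) (hg : g Z = Z) :
    dlyRootAct p g Z hg (AdjoinRoot.root _) = AdjoinRoot.root _ := by
  rw [dlyRootAct, AdjoinRoot.map_root]

theorem dlyRootAct_mk (g : F →+* F) (Z : F) (hg : g Z = Z) (T : F[X]) :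
    dlyRootAct p g Z hg (AdjoinRoot.mk _ T) = AdjoinRoot.mk _ (T.map g) := by
  unfold dlyRootAct AdjoinRoot.map
  rw [AdjoinRoot.lift_mk, ← Polynomial.eval₂_map, ← AdjoinRoot.algebraMap_eq, ← aeval_def,
    AdjoinRoot.aeval_eq]

theorem dlyRootAct_id (Z : F) : dlyRootAct p (RingHom.id F) Z rfl = RingHom.id _ := by
  refine RingHom.ext fun x => ?_
  obtain ⟨T, rfl⟩ := AdjoinRoot.mk_surjective x
  rw [dlyRootAct_mk, Polynomial.map_id, RingHom.id_apply]

theorem dlyRootAct_comp (g g' : F →+* F) (Z : F) (hg : g Z = Z) (hg' : g' Z = Z) :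
    dlyRootAct p (g.comp g') Z (by rw [RingHom.comp_apply, hg', hg]) =
      (dlyRootAct p g Z hg).comp (dlyRootAct p g' Z hg') := by
  refine RingHom.ext fun x => ?_
  obtain ⟨T, rfl⟩ := AdjoinRoot.mk_surjective x
  show _ = dlyRootAct p g Z hg (dlyRootAct p g' Z hg' _)
  rw [dlyRootAct_mk, dlyRootAct_mk, dlyRootAct_mk, Polynomial.map_map]

end Act

end Fermat.Agent.Delta
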