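/-
DELTA / COVER-ABS (helper8), part 5: **the sheets of the Kummer cover over a vertical discrete
valuation ring, and the transitivity of `τ`**.

`K : DlyKummer p F F'`, `V` a discrete valuation ring of `F` with `ϖ ∈ 𝔪_V`, `η ∈ V^×`, `b ∈ V`,
`τ ∈ Aut(F' / F)` with `τ y = ζ y` (`ζ` a primitive `p`-th root of unity), and `ρ ∈ V` a root of
`Q` modulo `𝔪_V`.

* `K.gen'_intOverV` : `K.gen'` is integral over `V`; the extensions `Vt` of `V` are discrete valuation
  rings (`dly_dvr`), unramified (`dly_ord_algebraMap`);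
* `dly_exists_index`  : every extension `Vt` of `V` has an index `j < p` with
  `τ ^ j u ≡ ρ mod 𝔪_Vt`;
* `dly_eq_of_root`    : an extension `Vt` of `V` is determined by the residue of `u`;
* `dly_transitive`    : `τ` permutes the extensions of `V` transitively;
* **`dly_ord_const`** : if `τ z' = e · h ^ p · z'` with `p ∣ ord_V e`, then `ord_Vt z' mod p` does
  not depend on the extension `Vt` of `V`   (board DELTA §2 (c)).
-/
import Fermat.Agent.Lib.Delta.Cover.Gen
import Fermat.Agent.Lib.Delta.Cover.Tr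
import Fermat.Agent.Lib.Delta.Et.Dvr
import Fermat.Agent.Lib.Delta.Node.Basic

set_option autoImplicit false
set_option linter.style.haveILetI false
set_option linter.unusedSectionVars false
set_option linter.unusedVariables false

namespace Fermat.Agent.Delta

open Polynomial

variable {p : ℕ} {F F' : Type*} [Field F] [Field F'] [Algebra F F']

namespace DlyKummer

variable (K : DlyKummer p F F') (V : ValuationSubring F) [hV : IsDiscreteValuationRing V]
  (hϖ : V.valuation K.ϖ < 1) (hη : V.valuation K.η = 1) (hb : K.b ∈ V)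

include hϖ in
theorem ϖ_memV : K.ϖ ∈ V.toSubring := (V.valuation_le_one_iff _).mp hϖ.le

include hϖ in
theorem ϖ_mem_maxV :
    (⟨K.ϖ, K.ϖ_memV V hϖ⟩ : ↥V.toSubring) ∈ IsLocalRing.maximalIdeal ↥V.toSubring :=
  (V.valuation_lt_one_iff ⟨K.ϖ, K.ϖ_memV V hϖ⟩).mpr hϖ

include hη in
theorem η_memV : K.η ∈ V.toSubring := (V.valuation_le_one_iff _).mp hη.le

include hη in
theorem η_inv_memV : K.η⁻¹ ∈ V.toSubring := by
  refine (V.valuation_le_one_iff _).mp ?_
  rw [map_inv₀, hη, inv_one]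

include hϖ hη hb in
/-- the étale generator is integral over a vertical discrete valuation ring -/
theorem gen'_intOverV : K.gen'.IntOver V.toSubring :=
  K.gen'_intOver_local V.toSubring (K.ϖ_memV V hϖ) (K.ϖ_mem_maxV V hϖ) (K.η_memV V hη)
    (K.η_inv_memV V hη) hb

end DlyKummer

section Sheets

variable (K : DlyKummer p F F') (V : ValuationSubring F) [hV : IsDiscreteValuationRing V]
  (hϖ : V.valuation K.ϖ < 1) (hη : V.valuation K.η = 1) (hb : K.b ∈ V)
  (Vt : ValuationSubring F') (hVt : Vt.comap (algebraMap F F') = V)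

include hϖ hη hb hVt in
/-- the extensions of `V` are discrete valuation rings -/
theorem dly_dvr : IsDiscreteValuationRing Vt :=
  dlt_dvr K.gen' V (K.gen'_intOverV V hϖ hη hb) Vt hVt

include hϖ hη hb hVt in
theorem dly_u_mem : K.u ∈ Vt :=
  dlt_u_mem K.gen' V (K.gen'_intOverV V hϖ hη hb) Vt hVt

include hϖ hη hb hVt in
/-- the extensions of `V` are unramified: a uniformiser of `V` is a uniformiser of `Vt` -/
theorem dly_unif {a : F} (ha : DlUnif V a) : DlUnif Vt (algebraMap F F' a) :=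
  dlt_unif K.gen' V (K.gen'_intOverV V hϖ hη hb) Vt hVt ha.1 ha.2

include hϖ hη hb hVt in
/-- the extensions of `V` are unramified: orders of elements of `F` do not change -/
theorem dly_ord_algebraMap [IsDiscreteValuationRing Vt] (x : F) :
    dlOrd Vt (algebraMap F F' x) = dlOrd V x := by
  obtain ⟨a, haV, ha⟩ := dl_exists_ord_eq_one V
  have ha0 : a ≠ 0 := by rintro rfl; simp at ha
  have hunif : DlUnif V a := by
    refine ⟨(dl_valuation_lt_one_iff V ha0).mpr (by omega), fun x hx => ?_⟩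
    rcases eq_or_ne x 0 with rfl | hx0
    · rw [map_zero]; exact zero_le
    · rw [dl_valuation_le_iff V hx0 ha0]
      have := (dl_valuation_lt_one_iff V hx0).mp hx
      omega
  refine dly_ord_map V Vt (algebraMap F F') (fun x hx => ?_) ha
    (dln_ord_of_unif Vt (dly_unif K V hϖ hη hb Vt hVt hunif)) x
  rw [← dlt_comap_eq_one, hVt]
  exact hx

end Sheets

section Tau

variable (K : DlyKummer p F F') (ζ : F) (τ : F' ≃ₐ[F] F')
  (hτ : τ K.y = algebraMap F F' ζ * K.y)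

include hτ in
theorem dly_pow_apply_y (j : ℕ) : (τ ^ j) K.y = algebraMap F F' ζ ^ j * K.y := by
  induction j with
  | zero => rw [pow_zero, AlgEquiv.one_apply, pow_zero, one_mul]
  | succ j ih =>
    rw [pow_succ, AlgEquiv.mul_apply, hτ, map_mul, AlgEquiv.commutes, ih, pow_succ]
    ring

include hτ in
/-- the conjugates of `u` are its translates by the powers of `τ` -/
theorem dly_pow_apply_u (j : ℕ) : (τ ^ j) K.u = K.conj ζ j := by
  rw [DlyKummer.u, DlyKummer.conj, map_div₀, map_sub, map_one, dly_pow_apply_y K ζ τ hτ,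
    AlgEquiv.commutes]

end Tau

section Main

variable (K : DlyKummer p F F') (V : ValuationSubring F) [hV : IsDiscreteValuationRing V]
  (hϖ : V.valuation K.ϖ < 1) (hη : V.valuation K.η = 1) (hb : K.b ∈ V)
  (ζ : F) (hζ : IsPrimitiveRoot ζ p) (τ : F' ≃ₐ[F] F')
  (hτ : τ K.y = algebraMap F F' ζ * K.y)
  (ρ : F) (hρ : ρ ∈ V) (hρQ : V.valuation (eval ρ K.Q) < 1)

include hϖ hη hb hζ hτ hρ hρQ in
/-- every extension of `V` has an index -/
theorem dly_exists_index (Vt : ValuationSubring F') (hVt : Vt.comap (algebraMap F F') = V) :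
    ∃ j : ℕ, j < p ∧ Vt.valuation ((τ ^ j) K.u - algebraMap F F' ρ) < 1 := by
  by_contra hcon
  push Not at hcon
  have hmem : ∀ j : ℕ, (τ ^ j) K.u - algebraMap F F' ρ ∈ Vt := by
    intro j
    refine Vt.toSubring.sub_mem ?_ ?_
    · have h1 : K.u ∈ dlyTr (τ ^ j) Vt :=
        dly_u_mem K V hϖ hη hb (dlyTr (τ ^ j) Vt) (by rw [dlyTr_comap]; exact hVt)
      exact h1
    · have : ρ ∈ Vt.comap (algebraMap F F') := by rw [hVt]; exact hρ
      exact this
  have hone : ∀ j ∈ Finset.range p, Vt.valuation (algebraMap F F' ρ - K.conj ζ j) = 1 := by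
    intro j hj
    rw [Finset.mem_range] at hj
    have h1 := hcon j hj
    have h2 : Vt.valuation ((τ ^ j) K.u - algebraMap F F' ρ) ≤ 1 :=
      (Vt.valuation_le_one_iff _).mpr (hmem j)
    rw [← dly_pow_apply_u K ζ τ hτ j, ← Valuation.map_neg, neg_sub]
    exact le_antisymm h2 h1
  have h3 : Vt.valuation (algebraMap F F' (eval ρ K.Q)) = 1 := by
    rw [K.eval_Q_eq_prod ζ hζ ρ, map_prod]
    exact Finset.prod_eq_one hone
  have h4 : Vt.valuation (algebraMap F F' (eval ρ K.Q)) < 1 := by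
    rw [← dlt_comap_lt_one, hVt]; exact hρQ
  rw [h3] at h4
  exact lt_irrefl _ h4

include hϖ hη hb hρ in
/-- an extension of `V` is determined by the residue of `u` -/
theorem dly_eq_of_root (S₁ S₂ : ValuationSubring F') (h₁ : S₁.comap (algebraMap F F') = V)
    (h₂ : S₂.comap (algebraMap F F') = V)
    (hr₁ : S₁.valuation (K.u - algebraMap F F' ρ) < 1)
    (hr₂ : S₂.valuation (K.u - algebraMap F F' ρ) < 1) : S₁ = S₂ := by
  set g := K.gen' with hg
  have hint : g.IntOver V.toSubring := K.gen'_intOverV V hϖ hη hb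
  have key : ∀ (S : ValuationSubring F') (hS : S.comap (algebraMap F F') = V)
      (hr : S.valuation (K.u - algebraMap F F' ρ) < 1) (T : F[X]) (hT : T ∈ dltPol V.toSubring),
      S.valuation (aeval K.u T) < 1 ↔ V.valuation (eval ρ T) < 1 := by
    intro S hS hr T hT
    have hdiv : T = (X - C ρ) * (T /ₘ (X - C ρ)) + C (eval ρ T) := by
      have := modByMonic_add_div T (X - C ρ)
      rw [modByMonic_X_sub_C_eq_C_eval] at this
      conv_lhs => rw [← this]
      ring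
    have hT₁ : T /ₘ (X - C ρ) ∈ dltPol V.toSubring :=
      (dlt_pol_modByMonic hT (dlt_pol_sub dlt_pol_X (dlt_pol_C hρ)) (monic_X_sub_C ρ)).2
    have h1 : aeval K.u T = (K.u - algebraMap F F' ρ) * aeval K.u (T /ₘ (X - C ρ)) +
        algebraMap F F' (eval ρ T) := by
      conv_lhs => rw [hdiv]
      rw [map_add, map_mul, map_sub, aeval_X, aeval_C, aeval_C]
    have h2 : aeval K.u (T /ₘ (X - C ρ)) ∈ S := by
      have : aeval K.u (T /ₘ (X - C ρ)) ∈ g.adj V.toSubring :=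
        g.mem_adj.mpr ⟨_, hT₁, rfl⟩
      exact dlt_adj_le g V hint S hS this
    have h3 : S.valuation ((K.u - algebraMap F F' ρ) * aeval K.u (T /ₘ (X - C ρ))) < 1 := by
      rw [map_mul]
      calc S.valuation (K.u - algebraMap F F' ρ) * S.valuation (aeval K.u (T /ₘ (X - C ρ)))
          ≤ S.valuation (K.u - algebraMap F F' ρ) * 1 :=
            mul_le_mul_right ((S.valuation_le_one_iff _).mpr h2) _
        _ = S.valuation (K.u - algebraMap F F' ρ) := mul_one _
        _ < 1 := hr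
    have h4 : S.valuation (algebraMap F F' (eval ρ T)) < 1 ↔ V.valuation (eval ρ T) < 1 := by
      rw [← dlt_comap_lt_one, hS]
    rw [← h4, h1]
    constructor
    · intro h
      have : algebraMap F F' (eval ρ T) =
          ((K.u - algebraMap F F' ρ) * aeval K.u (T /ₘ (X - C ρ)) +
            algebraMap F F' (eval ρ T)) -
          (K.u - algebraMap F F' ρ) * aeval K.u (T /ₘ (X - C ρ)) := by ring
      rw [this]
      exact lt_of_le_of_lt (Valuation.map_sub _ _ _) (max_lt h h3)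
    · intro h
      exact lt_of_le_of_lt (Valuation.map_add _ _ _) (max_lt h3 h)
  refine dlt_eq_of_centre g V hint S₁ S₂ h₁ h₂ fun c hc => ?_
  obtain ⟨T, hT, rfl⟩ := g.mem_adj.mp hc
  show S₁.valuation (aeval K.u T) < 1 ↔ S₂.valuation (aeval K.u T) < 1
  rw [key S₁ h₁ hr₁ T hT, key S₂ h₂ hr₂ T hT]

include hϖ hη hb hζ hτ hρ hρQ in
/-- **`τ` permutes the extensions of `V` transitively** -/
theorem dly_transitive (Vt₁ Vt₂ : ValuationSubring F')
    (h₁ : Vt₁.comap (algebraMap F F') = V) (h₂ : Vt₂.comap (algebraMap F F') = V) :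
    ∃ j₁ j₂ : ℕ, j₁ < p ∧ j₂ < p ∧ dlyTr (τ ^ j₁) Vt₁ = dlyTr (τ ^ j₂) Vt₂ := by
  obtain ⟨j₁, hj₁, hv₁⟩ := dly_exists_index K V hϖ hη hb ζ hζ τ hτ ρ hρ hρQ Vt₁ h₁
  obtain ⟨j₂, hj₂, hv₂⟩ := dly_exists_index K V hϖ hη hb ζ hζ τ hτ ρ hρ hρQ Vt₂ h₂
  refine ⟨j₁, j₂, hj₁, hj₂, ?_⟩
  refine dly_eq_of_root K V hϖ hη hb ρ hρ _ _ (by rw [dlyTr_comap]; exact h₁)
    (by rw [dlyTr_comap]; exact h₂) ?_ ?_
  · rw [dlyTr_valuation_lt_one, map_sub, AlgEquiv.commutes]; exact hv₁
  · rw [dlyTr_valuation_lt_one, map_sub, AlgEquiv.commutes]; exact hv₂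

include hϖ hη hb in
/-- orders on a translate -/
theorem dly_ord_tr (σ : F' ≃ₐ[F] F') (Vt : ValuationSubring F')
    (hVt : Vt.comap (algebraMap F F') = V) [IsDiscreteValuationRing Vt]
    [IsDiscreteValuationRing (dlyTr σ Vt)] (x : F') :
    dlOrd (dlyTr σ Vt) x = dlOrd Vt (σ x) := by
  obtain ⟨a, haV, ha⟩ := dl_exists_ord_eq_one V
  have hS : (dlyTr σ Vt).comap (algebraMap F F') = V := by rw [dlyTr_comap]; exact hVt
  have h1 : dlOrd (dlyTr σ Vt) (algebraMap F F' a) = 1 := by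
    rw [dly_ord_algebraMap K V hϖ hη hb _ hS, ha]
  have h2 : dlOrd Vt (algebraMap F F' a) = 1 := by
    rw [dly_ord_algebraMap K V hϖ hη hb _ hVt, ha]
  refine (dly_ord_map (dlyTr σ Vt) Vt (σ : F' →+* F') (fun x hx => ?_) h1 ?_ x).symm
  · exact (dlyTr_valuation_eq_one σ Vt x).mp hx
  · show dlOrd Vt (σ (algebraMap F F' a)) = 1
    rw [AlgEquiv.commutes]; exact h2

include hϖ hη hb in
/-- the order of `τ ^ j z'` modulo `p` -/
theorem dly_ord_pow_apply (Vt : ValuationSubring F') (hVt : Vt.comap (algebraMap F F') = V)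
    [IsDiscreteValuationRing Vt] (z' : F') (hz' : z' ≠ 0) (e : F) (h : F')
    (he : (p : ℤ) ∣ dlOrd V e) (hτz : τ z' = algebraMap F F' e * h ^ p * z') (j : ℕ) :
    (p : ℤ) ∣ dlOrd Vt ((τ ^ j) z') - dlOrd Vt z' := by
  have hτz0 : τ z' ≠ 0 := (EmbeddingLike.map_ne_zero_iff (f := τ)).mpr hz'
  have he0 : algebraMap F F' e ≠ 0 := by
    intro h0; rw [h0, zero_mul, zero_mul] at hτz; exact hτz0 hτz
  have hh0 : h ≠ 0 := by
    rintro rfl
    rw [zero_pow K.hp.ne_zero, mul_zero, zero_mul] at hτz; exact hτz0 hτz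
  induction j with
  | zero => rw [pow_zero, AlgEquiv.one_apply, sub_self]; exact dvd_zero _
  | succ j ih =>
    have h1 : (τ ^ (j + 1)) z' =
        algebraMap F F' e * ((τ ^ j) h) ^ p * (τ ^ j) z' := by
      rw [pow_succ, AlgEquiv.mul_apply, hτz, map_mul, map_mul, AlgEquiv.commutes, map_pow]
    have hj0 : (τ ^ j) z' ≠ 0 := (EmbeddingLike.map_ne_zero_iff (f := τ ^ j)).mpr hz'
    have hjh0 : (τ ^ j) h ≠ 0 := (EmbeddingLike.map_ne_zero_iff (f := τ ^ j)).mpr hh0
    rw [h1, dlOrd_mul Vt (mul_ne_zero he0 (pow_ne_zero _ hjh0)) hj0,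
      dlOrd_mul Vt he0 (pow_ne_zero _ hjh0), dlOrd_pow,
      dly_ord_algebraMap K V hϖ hη hb Vt hVt]
    obtain ⟨c, hc⟩ := he
    obtain ⟨d, hd⟩ := ih
    exact ⟨c + dlOrd Vt ((τ ^ j) h) + d, by rw [hc]; linear_combination hd⟩

include hϖ hη hb hζ hτ hρ hρQ in
/-- **constancy of the orders modulo `p` on the sheets** (board DELTA §2 (c)): if
`τ z' = e · h ^ p · z'` with `p ∣ ord_V e`, the order of `z'` modulo `p` is the same at all
extensions of `V` to `F'` -/
theorem dly_ord_const (Vt₁ Vt₂ : ValuationSubring F')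
    (h₁ : Vt₁.comap (algebraMap F F') = V) (h₂ : Vt₂.comap (algebraMap F F') = V)
    [IsDiscreteValuationRing Vt₁] [IsDiscreteValuationRing Vt₂] (z' : F') (hz' : z' ≠ 0) (e : F)
    (h : F') (he : (p : ℤ) ∣ dlOrd V e) (hτz : τ z' = algebraMap F F' e * h ^ p * z') :
    (p : ℤ) ∣ dlOrd Vt₁ z' - dlOrd Vt₂ z' := by
  obtain ⟨j₁, j₂, -, -, hS⟩ := dly_transitive K V hϖ hη hb ζ hζ τ hτ ρ hρ hρQ Vt₁ Vt₂ h₁ h₂
  haveI : IsDiscreteValuationRing (dlyTr (τ ^ j₁) Vt₁) :=
    dly_dvr K V hϖ hη hb _ (by rw [dlyTr_comap]; exact h₁)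
  haveI : IsDiscreteValuationRing (dlyTr (τ ^ j₂) Vt₂) :=
    dly_dvr K V hϖ hη hb _ (by rw [dlyTr_comap]; exact h₂)
  have e1 : dlOrd (dlyTr (τ ^ j₁) Vt₁) z' = dlOrd Vt₁ ((τ ^ j₁) z') :=
    dly_ord_tr K V hϖ hη hb (τ ^ j₁) Vt₁ h₁ z'
  have e2 : dlOrd (dlyTr (τ ^ j₂) Vt₂) z' = dlOrd Vt₂ ((τ ^ j₂) z') :=
    dly_ord_tr K V hϖ hη hb (τ ^ j₂) Vt₂ h₂ z'
  have e3 : dlOrd (dlyTr (τ ^ j₁) Vt₁) z' = dlOrd (dlyTr (τ ^ j₂) Vt₂) z' := by
    congr 1
  obtain ⟨c₁, hc₁⟩ := dly_ord_pow_apply K V hϖ hη hb τ Vt₁ h₁ z' hz' e h he hτz j₁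
  obtain ⟨c₂, hc₂⟩ := dly_ord_pow_apply K V hϖ hη hb τ Vt₂ h₂ z' hz' e h he hτz j₂
  refine ⟨c₂ - c₁, ?_⟩
  have : dlOrd Vt₁ ((τ ^ j₁) z') = dlOrd Vt₂ ((τ ^ j₂) z') := by rw [← e1, ← e2, e3]
  linear_combination this - hc₁ + hc₂

end Main

end Fermat.Agent.Delta
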