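/-
DELTA / COVER-ABS (helper8), part 9: **the cover-level form of board DELTA §2 (c)**, assembled from
the cyclic cover `C : DlyCover p F F'` (its norm property `C.hnorm`) and helper2's `dlt_ord_conj`
(Et/Galois.lean): NO root of the Artin–Schreier polynomial is needed.

* `dly_cover_conj`      : the extensions of a vertical discrete valuation ring `V` (`ϖ ∈ 𝔪_V`,
  `η ∈ V^×`, `b ∈ V` for ONE normal form `Z = w ^ p (1 + ϖ ^ p b)`) are conjugate under `τ`;
* **`dly_cover_ord_const`** : if `τ z' = e · h ^ p · z'` with `p ∣ ord_V e`, then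
  `ord_{W₂} z' ≡ ord_{W₁} z' mod p` for any two extensions `W₁, W₂` of `V`.
-/
import Fermat.Agent.Lib.Delta.Cover.Cover
import Fermat.Agent.Lib.Delta.Cover.Sheet
import Fermat.Agent.Lib.Delta.Et.Galois

set_option autoImplicit false
set_option linter.style.haveILetI false
set_option linter.unusedSectionVars false
set_option linter.unusedVariables false

namespace Fermat.Agent.Delta

open Polynomial

variable {p : ℕ} {F F' : Type*} [Field F] [Field F'] [Algebra F F'] (C : DlyCover p F F')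
  (w b : F) (hZ : C.Z = w ^ p * (1 + C.ϖ ^ p * b)) (hw : w ≠ 0)
  (V : ValuationSubring F) [hV : IsDiscreteValuationRing V]
  (hϖ : V.valuation C.ϖ < 1) (hη : V.valuation C.η = 1) (hb : b ∈ V)

include hϖ hη hb in
/-- the étale generator of a normal form is integral over a vertical discrete valuation ring -/
theorem dly_cover_intOver : (C.toGen w b hZ hw).IntOver V.toSubring :=
  (C.kummer w b hZ hw).gen'_intOverV V hϖ hη hb

include hZ hw hϖ hη hb in
/-- **the extensions of a vertical discrete valuation ring are conjugate under `τ`** -/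
theorem dly_cover_conj (W₁ W₂ : ValuationSubring F')
    (h₁ : W₁.comap (algebraMap F F') = V) (h₂ : W₂.comap (algebraMap F F') = V) :
    ∃ i < p, W₂ = dltConjVal W₁ (C.τ ^ i) :=
  dlt_conj (C.toGen w b hZ hw) V (dly_cover_intOver C w b hZ hw V hϖ hη hb) C.τ p C.hp.pos
    C.hnorm W₁ W₂ h₁ h₂

include hZ hw hϖ hη hb in
/-- **constancy of the orders modulo `p` on the sheets** (board DELTA §2 (c)) -/
theorem dly_cover_ord_const (z' : F') (hz' : z' ≠ 0) (e : F) (h : F')
    (he : (p : ℤ) ∣ dlOrd V e) (hτz : C.τ z' = algebraMap F F' e * h ^ p * z')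
    (W₁ W₂ : ValuationSubring F') [IsDiscreteValuationRing W₁] [IsDiscreteValuationRing W₂]
    (h₁ : W₁.comap (algebraMap F F') = V) (h₂ : W₂.comap (algebraMap F F') = V) :
    (p : ℤ) ∣ dlOrd W₂ z' - dlOrd W₁ z' := by
  refine dlt_ord_conj (C.toGen w b hZ hw) V (dly_cover_intOver C w b hZ hw V hϖ hη hb) C.τ p
    C.hp.pos C.hnorm p z' ?_ W₁ W₂ h₁ h₂
  intro W _ hW
  have hτz0 : C.τ z' ≠ 0 := (EmbeddingLike.map_ne_zero_iff (f := C.τ)).mpr hz'
  have he0 : algebraMap F F' e ≠ 0 := by
    intro h0; rw [h0, zero_mul, zero_mul] at hτz; exact hτz0 hτz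
  have hh0 : h ≠ 0 := by
    rintro rfl
    rw [zero_pow C.hp.ne_zero, mul_zero, zero_mul] at hτz; exact hτz0 hτz
  rw [hτz, dlOrd_mul W (mul_ne_zero he0 (pow_ne_zero _ hh0)) hz',
    dlOrd_mul W he0 (pow_ne_zero _ hh0), dlOrd_pow,
    dly_ord_algebraMap (C.kummer w b hZ hw) V hϖ hη hb W hW]
  obtain ⟨c, hc⟩ := he
  exact ⟨c + dlOrd W h, by rw [hc]; ring⟩

end Fermat.Agent.Delta
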