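/-
DELTA / COVER-ABS (helper8), part 11: **the core computation for a family of nodes** — integration of
helper2's `dlq_core_node` (Core/NodeAbs.lean) with `dly_cover_ord_const` (Cover/Export.lean).

For a family of nodes `s ↦ (I₁ s, I₂ s)` (two levels) whose vertical valuation rings downstairs are the
SAME two discrete valuation rings `Vi, Vz` of `F₁`, a function `z'` on the cover with
`τ z' = e · h ^ p · z'` (`p ∣ ord e` at `Vi` and `Vz`: PEU) and `p ∣ ord_V z'` at the horizontal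
valuation rings, and `ιF' z' = zx · r ^ p`:

* **`dly_core_family`** : `∃ γ : ℤ, ∀ s, p ∣ slope_s(zx) · δ - slope_s(D) · γ`, `δ = ord_{Vz} D - ord_{Vi} D`,
  with ONE `γ` for all nodes (board DELTA §2 (c)+(d)+(e)).
-/
import Fermat.Agent.Lib.Delta.Cover.Export
import Fermat.Agent.Lib.Delta.Core.NodeAbs

set_option autoImplicit false
set_option linter.style.haveILetI false
set_option linter.unusedSectionVars false
set_option linter.unusedVariables false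

namespace Fermat.Agent.Delta

open Polynomial Fermat.Agent.T4

universe uL uF uF' vL vF vF'

variable {p : ℕ} {L₁ : Type uL} {F₁ : Type uF} {F'₁ : Type uF'} [Field L₁] [Field F₁] [Field F'₁]
  [Algebra L₁ F₁] [Algebra F₁ F'₁] [Algebra L₁ F'₁] [IsScalarTower L₁ F₁ F'₁]
  {L₂ : Type vL} {F₂ : Type vF} {F'₂ : Type vF'} [Field L₂] [Field F₂] [Field F'₂]
  [Algebra L₂ F₂] [Algebra F₂ F'₂] [Algebra L₂ F'₂] [IsScalarTower L₂ F₂ F'₂]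
  (C : DlyCover p F₁ F'₁)
  (Vi Vz : ValuationSubring F₁) [hVi : IsDiscreteValuationRing Vi] [hVz : IsDiscreteValuationRing Vz]
  -- one normal form which is integral over `Vi` and over `Vz`
  (w b : F₁) (hZ : C.Z = w ^ p * (1 + C.ϖ ^ p * b)) (hw : w ≠ 0)
  (hϖi : Vi.valuation C.ϖ < 1) (hηi : Vi.valuation C.η = 1) (hbi : b ∈ Vi)
  (hϖz : Vz.valuation C.ϖ < 1) (hηz : Vz.valuation C.η = 1) (hbz : b ∈ Vz)
  -- the family of nodes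
  {ι : Type*} (I₁ : ι → DltInput L₁ F₁ F'₁) (I₂ : ι → DltInput L₂ F₂ F'₂)
  (hWi : ∀ s, (I₁ s).𝒩.W = Vi) (hWz : ∀ s, (I₁ s).𝒩.W' = Vz)
  (ιF : F₁ →+* F₂) (ιF' : F'₁ →+* F'₂)
  (hsq : ∀ f : F₁, ιF' (algebraMap F₁ F'₁ f) = algebraMap F₂ F'₂ (ιF f))
  (hu : ∀ s, ιF' (I₁ s).g.u = (I₂ s).g.u) (hρ : ∀ s, ιF (I₁ s).ρ = (I₂ s).ρ)
  (hA : ∀ s, ∀ f ∈ (I₁ s).𝒩.P.B, ιF f ∈ (I₂ s).𝒩.P.B)
  (hloc : ∀ s, ∀ f : ↥(I₁ s).𝒩.P.B, IsUnit f →
    IsUnit (⟨ιF f, hA s f f.2⟩ : ↥(I₂ s).𝒩.P.B))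
  (hWc : ∀ s, (I₂ s).𝒩.W.comap ιF = (I₁ s).𝒩.W)
  (hens₁ : ∀ s, DltHens (I₁ s).𝒩.O F'₁) (hens₂ : ∀ s, DltHens (I₂ s).𝒩.O F'₂)
  (hπ : ∀ s, (I₂ s).𝒩.slope (ιF (algebraMap L₁ F₁ (I₁ s).𝒩.ϖ)) = 0)
  (ht : ∀ s, (I₂ s).𝒩.slope (ιF (I₁ s).𝒩.t) = 1)

include hZ hw hϖi hηi hbi hϖz hηz hbz hWi hWz hsq hu hρ hA hloc hWc hens₁ hens₂ hπ ht in
/-- **the core computation for a family of nodes, with one `γ`** -/
theorem dly_core_family {zx : F₂} (hzx : zx ≠ 0) {r : F'₂} (hr : r ≠ 0) {z' : F'₁} (hz' : z' ≠ 0)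
    (hrel : ιF' z' = algebraMap F₂ F'₂ zx * r ^ p)
    (hhor : ∀ s, ∀ (V : ValuationSubring F'₁) (hV : V ∈ ((I₁ s).node (hens₁ s)).toDlLocal.hor),
      (p : ℤ) ∣ (haveI := ((I₁ s).node (hens₁ s)).P.dvr V hV.1; dlOrd V z'))
    (e : F₁) (h : F'₁) (hei : (p : ℤ) ∣ dlOrd Vi e) (hez : (p : ℤ) ∣ dlOrd Vz e)
    (hτz : C.τ z' = algebraMap F₁ F'₁ e * h ^ p * z')
    {D : F₁} (hD : D ≠ 0) (hDhor : ∀ s, ∀ V ∈ (I₁ s).𝒩.toDlLocal.hor, V.valuation D = 1) :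
    ∃ γ : ℤ, ∀ s, (p : ℤ) ∣ (I₂ s).𝒩.slope zx * (dlOrd Vz D - dlOrd Vi D) -
      (I₁ s).𝒩.slope D * γ := by
  classical
  by_cases hne : Nonempty ι
  swap
  · exact ⟨0, fun s => (hne ⟨s⟩).elim⟩
  obtain ⟨s₀⟩ := hne
  -- the orders of `z'` at the two vertical valuation rings of the node upstairs
  let oW : ι → ℤ := fun s =>
    (haveI := ((I₁ s).node (hens₁ s)).P.dvr _ ((I₁ s).node (hens₁ s)).hW;
      dlOrd ((I₁ s).node (hens₁ s)).W z')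
  let oW' : ι → ℤ := fun s =>
    (haveI := ((I₁ s).node (hens₁ s)).P.dvr _ ((I₁ s).node (hens₁ s)).hW';
      dlOrd ((I₁ s).node (hens₁ s)).W' z')
  refine ⟨oW' s₀ - oW s₀, fun s => ?_⟩
  have hcore := dlq_core_node (I₁ s) (I₂ s) ιF ιF' hsq (hu s) (hρ s) (hA s) (hloc s) (hWc s)
    (hens₁ s) (hens₂ s) (hπ s) (ht s) p hzx hr hz' hrel (hhor s) hD (hDhor s)
  -- constancy on the sheets over `Vi` and over `Vz`
  have hci : (p : ℤ) ∣ oW s - oW s₀ := by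
    haveI := ((I₁ s).node (hens₁ s)).P.dvr _ ((I₁ s).node (hens₁ s)).hW
    haveI := ((I₁ s₀).node (hens₁ s₀)).P.dvr _ ((I₁ s₀).node (hens₁ s₀)).hW
    exact dly_cover_ord_const C w b hZ hw Vi hϖi hηi hbi z' hz' e h hei hτz
      ((I₁ s₀).node (hens₁ s₀)).W ((I₁ s).node (hens₁ s)).W
      (by rw [(I₁ s₀).node_W_comap (hens₁ s₀), hWi])
      (by rw [(I₁ s).node_W_comap (hens₁ s), hWi])
  have hcz : (p : ℤ) ∣ oW' s - oW' s₀ := by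
    haveI := ((I₁ s).node (hens₁ s)).P.dvr _ ((I₁ s).node (hens₁ s)).hW'
    haveI := ((I₁ s₀).node (hens₁ s₀)).P.dvr _ ((I₁ s₀).node (hens₁ s₀)).hW'
    exact dly_cover_ord_const C w b hZ hw Vz hϖz hηz hbz z' hz' e h hez hτz
      ((I₁ s₀).node (hens₁ s₀)).W' ((I₁ s).node (hens₁ s)).W'
      (by rw [(I₁ s₀).node_W'_comap (hens₁ s₀), hWz])
      (by rw [(I₁ s).node_W'_comap (hens₁ s), hWz])
  -- rewrite the orders of `D`
  have eDi : (haveI := (I₁ s).𝒩.P.dvr _ (I₁ s).𝒩.hW; dlOrd (I₁ s).𝒩.W D) = dlOrd Vi D := by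
    have := hWi s
    congr 1
  have eDz : (haveI := (I₁ s).𝒩.P.dvr _ (I₁ s).𝒩.hW'; dlOrd (I₁ s).𝒩.W' D) = dlOrd Vz D := by
    have := hWz s
    congr 1
  rw [eDi, eDz] at hcore
  obtain ⟨a, ha⟩ := hcore
  obtain ⟨ci, hci⟩ := hci
  obtain ⟨cz, hcz⟩ := hcz
  refine ⟨a + (I₁ s).𝒩.slope D * (cz - ci), ?_⟩
  have e1 : oW' s - oW s = (oW' s₀ - oW s₀) + (p : ℤ) * (cz - ci) := by
    linear_combination hcz - hci
  have ha' : (I₂ s).𝒩.slope zx * (dlOrd Vz D - dlOrd Vi D) -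
      (I₁ s).𝒩.slope D * (oW' s - oW s) = (p : ℤ) * a := ha
  linear_combination ha' + (I₁ s).𝒩.slope D * e1

end Fermat.Agent.Delta
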