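/-
DELTA / COVER-ABS (helper8), part 7: **the input of the étale transfer at a node of `X`** built from
a Kummer datum.

* `dlyQ_eval`            : `Q(ρ) = ρ ^ p + η ρ - b + ϖ R(ρ)`;
* `DlyKummer.input`      : `DltInput L F F'` from `K`, a node `𝒩` with `ϖ ∈ 𝔪_A`, `η ∈ A^×`, `b ∈ A`
  and `ρ ∈ A` with `ρ ^ p + η ρ - b ∈ 𝔪_A`;
* `DlyKummer.inputPi`    : the same when `ϖ = 𝒩.pi` and `η` is the image of a unit of `O`;
* `dly_pi_mem_max`       : `ϖ ∈ 𝔪_A`;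
* `dly_ord_const'`       : `dly_ord_const` with the root condition in the form
  `ρ ^ p + η ρ - b ∈ 𝔪_V`.
-/
import Fermat.Agent.Lib.Delta.Cover.Sheet
import Fermat.Agent.Lib.Delta.Et.Node
import Fermat.Agent.Lib.Delta.Node.Export

set_option autoImplicit false
set_option linter.style.haveILetI false
set_option linter.unusedSectionVars false
set_option linter.unusedVariables false

namespace Fermat.Agent.Delta

open Polynomial Fermat.Agent.T4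

universe uL uF uF'

section Eval

variable {F : Type*} [Field F]

theorem dlyQ_eval (p : ℕ) (ϖ η b ρ : F) :
    eval ρ (dlyQ p ϖ η b) = ρ ^ p + η * ρ - b + ϖ * eval ρ (dlyR p ϖ η) := by
  unfold dlyQ
  rw [eval_sub, eval_add, eval_add, eval_pow, eval_X, eval_mul, eval_C, eval_X, eval_mul, eval_C,
    eval_C]
  ring

end Eval

variable {p : ℕ} {L : Type uL} {F : Type uF} {F' : Type uF'} [Field L] [Field F] [Field F']
  [Algebra L F] [Algebra F F'] [Algebra L F'] [IsScalarTower L F F']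

/-- `ϖ` lies in the maximal ideal of the local ring of a node -/
theorem dly_pi_mem_max (𝒩 : DlLocal L F) :
    (⟨𝒩.pi, 𝒩.pi_mem⟩ : 𝒩.P.B) ∈ IsLocalRing.maximalIdeal 𝒩.P.B := by
  rw [IsLocalRing.mem_maximalIdeal, mem_nonunits_iff]
  intro hu
  have h1 := ((dln_isU_iff_isUnit 𝒩 ⟨𝒩.pi, 𝒩.pi_mem⟩).mpr hu).oW
  have h2 := dln_oW_pi 𝒩
  rw [h2] at h1
  exact one_ne_zero h1

namespace DlyKummer

variable (K : DlyKummer p F F')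

section Input

variable (𝒩 : DlNode L F) (hϖA : K.ϖ ∈ 𝒩.P.B)
  (hϖm : (⟨K.ϖ, hϖA⟩ : 𝒩.P.B) ∈ IsLocalRing.maximalIdeal 𝒩.P.B) (hηA : K.η ∈ 𝒩.P.B)
  (hηi : K.η⁻¹ ∈ 𝒩.P.B) (hbA : K.b ∈ 𝒩.P.B) (ρ : F) (hρ : ρ ∈ 𝒩.P.B)
  (hρQ : (⟨ρ ^ p + K.η * ρ - K.b, Subring.sub_mem _ (Subring.add_mem _ (Subring.pow_mem _ hρ p)
    (Subring.mul_mem _ hηA hρ)) hbA⟩ : 𝒩.P.B) ∈ IsLocalRing.maximalIdeal 𝒩.P.B)

/-- **the input of the étale transfer at a node** -/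
noncomputable def input : DltInput L F F' where
  𝒩 := 𝒩
  g := K.gen'
  hint := K.gen'_intOver_local 𝒩.P.B hϖA hϖm hηA hηi hbA
  ρ := ρ
  hρ := hρ
  hρQ := by
    have hR : eval ρ (dlyR p K.ϖ K.η) ∈ 𝒩.P.B := dlt_eval_mem (dlyR_mem_pol hϖA hηA) hρ
    have e : (⟨eval ρ (K.gen').Q,
        dlt_eval_mem (K.gen'_intOver_local 𝒩.P.B hϖA hϖm hηA hηi hbA).1 hρ⟩ : 𝒩.P.B) =
        ⟨ρ ^ p + K.η * ρ - K.b, Subring.sub_mem _ (Subring.add_mem _ (Subring.pow_mem _ hρ p)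
          (Subring.mul_mem _ hηA hρ)) hbA⟩ + ⟨K.ϖ, hϖA⟩ * ⟨_, hR⟩ := by
      apply Subtype.ext
      show eval ρ (dlyQ p K.ϖ K.η K.b) = _
      rw [dlyQ_eval]
      rfl
    rw [e]
    exact Ideal.add_mem _ hρQ (Ideal.mul_mem_right _ _ hϖm)

@[simp] theorem input_𝒩 : (K.input 𝒩 hϖA hϖm hηA hηi hbA ρ hρ hρQ).𝒩 = 𝒩 := rfl

@[simp] theorem input_u : (K.input 𝒩 hϖA hϖm hηA hηi hbA ρ hρ hρQ).g.u = K.u := rfl

@[simp] theorem input_ρ : (K.input 𝒩 hϖA hϖm hηA hηi hbA ρ hρ hρQ).ρ = ρ := rfl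

end Input

section InputPi

variable (𝒩 : DlNode L F) (hϖ : K.ϖ = 𝒩.pi) (η₀ : L) (hη₀ : K.η = algebraMap L F η₀)
  (hη₀u : 𝒩.O.valuation η₀ = 1) (hbA : K.b ∈ 𝒩.P.B) (ρ : F) (hρ : ρ ∈ 𝒩.P.B)

include hϖ in
theorem pi_memA : K.ϖ ∈ 𝒩.P.B := by rw [hϖ]; exact 𝒩.pi_mem

include hϖ in
theorem pi_mem_maxA : (⟨K.ϖ, K.pi_memA 𝒩 hϖ⟩ : 𝒩.P.B) ∈ IsLocalRing.maximalIdeal 𝒩.P.B := by
  have e : (⟨K.ϖ, K.pi_memA 𝒩 hϖ⟩ : 𝒩.P.B) = ⟨𝒩.pi, 𝒩.pi_mem⟩ := Subtype.ext hϖ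
  rw [e]
  exact dly_pi_mem_max 𝒩.toDlLocal

include hη₀ hη₀u in
theorem η_memA : K.η ∈ 𝒩.P.B := by
  rw [hη₀]; exact (dln_isU_of_unit_O 𝒩.toDlLocal hη₀u).1

include hη₀ hη₀u in
theorem η_inv_memA : K.η⁻¹ ∈ 𝒩.P.B := by
  rw [hη₀]; exact (dln_isU_of_unit_O 𝒩.toDlLocal hη₀u).2.1

/-- the input of the étale transfer when `ϖ = 𝒩.pi` and `η` comes from a unit of `O` -/
noncomputable def inputPi
    (hρQ : (⟨ρ ^ p + K.η * ρ - K.b, Subring.sub_mem _ (Subring.add_mem _ (Subring.pow_mem _ hρ p)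
      (Subring.mul_mem _ (K.η_memA 𝒩 η₀ hη₀ hη₀u) hρ)) hbA⟩ : 𝒩.P.B) ∈
        IsLocalRing.maximalIdeal 𝒩.P.B) : DltInput L F F' :=
  K.input 𝒩 (K.pi_memA 𝒩 hϖ) (K.pi_mem_maxA 𝒩 hϖ) (K.η_memA 𝒩 η₀ hη₀ hη₀u)
    (K.η_inv_memA 𝒩 η₀ hη₀ hη₀u) hbA ρ hρ hρQ

end InputPi

end DlyKummer

section Const

variable (K : DlyKummer p F F') (V : ValuationSubring F) [hV : IsDiscreteValuationRing V]
  (hϖ : V.valuation K.ϖ < 1) (hη : V.valuation K.η = 1) (hb : K.b ∈ V)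
  (ζ : F) (hζ : IsPrimitiveRoot ζ p) (τ : F' ≃ₐ[F] F')
  (hτ : τ K.y = algebraMap F F' ζ * K.y)
  (ρ : F) (hρ : ρ ∈ V) (hρQ : V.valuation (ρ ^ p + K.η * ρ - K.b) < 1)

include hϖ hη hρ hρQ in
theorem dly_root_val : V.valuation (eval ρ K.Q) < 1 := by
  rw [dlyQ_eval]
  refine lt_of_le_of_lt (Valuation.map_add _ _ _) (max_lt hρQ ?_)
  rw [map_mul]
  have hR : eval ρ (dlyR p K.ϖ K.η) ∈ V.toSubring :=
    dlt_eval_mem (dlyR_mem_pol (K.ϖ_memV V hϖ) (K.η_memV V hη)) hρ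
  calc V.valuation K.ϖ * V.valuation (eval ρ (dlyR p K.ϖ K.η))
      ≤ V.valuation K.ϖ * 1 := mul_le_mul_right ((V.valuation_le_one_iff _).mpr hR) _
    _ = V.valuation K.ϖ := mul_one _
    _ < 1 := hϖ

include hϖ hη hb hζ hτ hρ hρQ in
/-- **constancy of the orders modulo `p` on the sheets**, root condition in Artin–Schreier form -/
theorem dly_ord_const' (Vt₁ Vt₂ : ValuationSubring F')
    (h₁ : Vt₁.comap (algebraMap F F') = V) (h₂ : Vt₂.comap (algebraMap F F') = V)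
    [IsDiscreteValuationRing Vt₁] [IsDiscreteValuationRing Vt₂] (z' : F') (hz' : z' ≠ 0) (e : F)
    (h : F') (he : (p : ℤ) ∣ dlOrd V e) (hτz : τ z' = algebraMap F F' e * h ^ p * z') :
    (p : ℤ) ∣ dlOrd Vt₁ z' - dlOrd Vt₂ z' :=
  dly_ord_const K V hϖ hη hb ζ hζ τ hτ ρ hρ (dly_root_val K V hϖ hη ρ hρ hρQ) Vt₁ Vt₂ h₁ h₂
    z' hz' e h he hτz

end Const

end Fermat.Agent.Delta
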