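/-
DELTA / COVER-ABS (helper8), part 8: **(C-CONST)** — the constants of two Artin–Schreier–Kummer
normal forms of the same function differ by a `p`-th power times a `1`-unit of level `p`
(helper2's (CV4), msg 1321).

`V` a valuation ring of `F` with uniformiser `ϖ ∈ L` (`DlUnif V ϖ`), `O = V ∩ L`, `p = η ϖ ^ (p - 1)`
with `η ∈ O`, and (RES) the residue field of `O` is `p`-closed in the residue field of `V`:
`v ∈ V^×`, `v ^ p ≡ a mod 𝔪_V` with `a ∈ L` ⇒ `v ≡ v₀ mod 𝔪_V` for some `v₀ ∈ L`.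

* `dly_one_add_pow`  : `(1 + ϖ e) ^ p = 1 + ϖ ^ p e'` with `e' ∈ V` for `e ∈ V`;
* **`dly_const`**    : `c₁ w₁ ^ p (1 + ϖ ^ p b₁) = c₂ w₂ ^ p (1 + ϖ ^ p b₂)` (`w_i ∈ V^×`, `b_i ∈ V`) ⇒
  `c₁ = c₂ v₀ ^ p (1 + ϖ ^ p d₀)` with `v₀ ∈ O^×`, `d₀ ∈ O`;
* `dly_const_normal` : then `c₁ w₁ ^ p (1 + ϖ ^ p b₁) = c₂ (v₀ w₁) ^ p (1 + ϖ ^ p b)` with
  `b = d₀ + b₁ + ϖ ^ p d₀ b₁`: ONE constant for all nodes.
-/
import Fermat.Agent.Lib.Delta.Cover.Poly
import Fermat.Agent.Lib.Delta.Et.Point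
import Fermat.Agent.Lib.Delta.Node.Defs

set_option autoImplicit false
set_option linter.style.haveILetI false
set_option linter.unusedSectionVars false
set_option linter.unusedVariables false

namespace Fermat.Agent.Delta

open Polynomial

section Pow

variable {F : Type*} [Field F]

/-- `(1 + ϖ e) ^ p = 1 + ϖ ^ p e'` with `e'` integral -/
theorem dly_one_add_pow {p : ℕ} (hp : p.Prime) {ϖ η : F} (hη : (p : F) = η * ϖ ^ (p - 1))
    (R : Subring F) (hϖR : ϖ ∈ R) (hηR : η ∈ R) {e : F} (he : e ∈ R) :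
    ∃ e' ∈ R, (1 + ϖ * e) ^ p = 1 + ϖ ^ p * e' := by
  refine ⟨eval e (dlyQ p ϖ η 0), dlt_eval_mem (dlyQ_mem_pol hϖR hηR R.zero_mem) he, ?_⟩
  have h := congrArg (eval e) (dlyQ_spec hp hη (0 : F))
  rw [eval_mul, eval_C, eval_sub, eval_pow, eval_add, eval_one, eval_mul, eval_C, eval_X, eval_C,
    mul_zero, add_zero] at h
  rw [h]; ring

end Pow

section Const

variable {L F : Type*} [Field L] [Field F] [Algebra L F] (p : ℕ) (hp : p.Prime)
  (O : ValuationSubring L) (V : ValuationSubring F)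
  (hOV : ∀ a : L, algebraMap L F a ∈ V ↔ a ∈ O)
  (ϖ η : L) (hϖ0 : ϖ ≠ 0) (hϖV : DlUnif V (algebraMap L F ϖ))
  (hη : (p : L) = η * ϖ ^ (p - 1)) (hηO : η ∈ O)
  (hres : ∀ (v : F) (a : L), V.valuation v = 1 → V.valuation (v ^ p - algebraMap L F a) < 1 →
    ∃ v₀ : L, V.valuation (v - algebraMap L F v₀) < 1)

include hp hOV hϖ0 hϖV hη hηO hres in
/-- **(C-CONST)** -/
theorem dly_const {c₁ c₂ : L} (hc₁ : c₁ ≠ 0) (hc₂ : c₂ ≠ 0) {w₁ w₂ b₁ b₂ : F}
    (hw₁ : V.valuation w₁ = 1) (hw₂ : V.valuation w₂ = 1) (hb₁ : b₁ ∈ V) (hb₂ : b₂ ∈ V)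
    (heq : algebraMap L F c₁ * w₁ ^ p * (1 + algebraMap L F ϖ ^ p * b₁) =
      algebraMap L F c₂ * w₂ ^ p * (1 + algebraMap L F ϖ ^ p * b₂)) :
    ∃ v₀ d₀ : L, v₀ ∈ O ∧ v₀⁻¹ ∈ O ∧ v₀ ≠ 0 ∧ d₀ ∈ O ∧ c₁ = c₂ * v₀ ^ p * (1 + ϖ ^ p * d₀) := by
  set π : F := algebraMap L F ϖ with hπ
  have hπlt : V.valuation π < 1 := hϖV.1
  have hπV : π ∈ V := (V.valuation_le_one_iff _).mp hπlt.le
  have hπ0 : π ≠ 0 := (_root_.map_ne_zero _).mpr hϖ0
  have hw₁0 : w₁ ≠ 0 := by rintro rfl; rw [map_zero] at hw₁; exact zero_ne_one hw₁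
  have hw₂0 : w₂ ≠ 0 := by rintro rfl; rw [map_zero] at hw₂; exact zero_ne_one hw₂
  have hc₁' : algebraMap L F c₁ ≠ 0 := (_root_.map_ne_zero _).mpr hc₁
  have hc₂' : algebraMap L F c₂ ≠ 0 := (_root_.map_ne_zero _).mpr hc₂
  -- `π ^ p b` has valuation `< 1`
  have hlt : ∀ b ∈ V, V.valuation (π ^ p * b) < 1 := by
    intro b hb
    rw [map_mul, map_pow]
    calc V.valuation π ^ p * V.valuation b ≤ V.valuation π ^ p * 1 :=
          mul_le_mul_right ((V.valuation_le_one_iff _).mpr hb) _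
      _ = V.valuation π ^ p := mul_one _
      _ < 1 := pow_lt_one₀ zero_le hπlt hp.ne_zero
  have ha : ∀ b ∈ V, V.valuation (1 + π ^ p * b) = 1 := fun b hb =>
    Valuation.map_one_add_of_lt _ (hlt b hb)
  have ha₁ := ha b₁ hb₁
  have ha₂ := ha b₂ hb₂
  have ha₁0 : 1 + π ^ p * b₁ ≠ 0 := by
    intro h0; rw [h0, map_zero] at ha₁; exact zero_ne_one ha₁
  set v : F := w₂ / w₁ with hv
  have hvval : V.valuation v = 1 := by rw [hv, map_div₀, hw₁, hw₂, div_one]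
  have hv0 : v ≠ 0 := div_ne_zero hw₂0 hw₁0
  set d : F := (b₂ - b₁) / (1 + π ^ p * b₁) with hd
  have hdV : d ∈ V := by
    rw [← V.valuation_le_one_iff, hd, map_div₀, ha₁, div_one]
    exact (V.valuation_le_one_iff _).mpr (V.toSubring.sub_mem hb₂ hb₁)
  -- `κ = v ^ p (1 + π ^ p d)`
  have hκ : algebraMap L F (c₁ / c₂) = v ^ p * (1 + π ^ p * d) := by
    rw [map_div₀, hv, hd, div_pow]
    field_simp
    linear_combination heq
  have hstep2 : V.valuation (v ^ p - algebraMap L F (c₁ / c₂)) < 1 := by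
    have e : v ^ p - algebraMap L F (c₁ / c₂) = -(v ^ p * (π ^ p * d)) := by rw [hκ]; ring
    rw [e, Valuation.map_neg, map_mul, map_pow, hvval, one_pow, one_mul]
    exact hlt d hdV
  obtain ⟨v₀, hv₀⟩ := hres v (c₁ / c₂) hvval hstep2
  have hv₀val : V.valuation (algebraMap L F v₀) = 1 := by
    have e : algebraMap L F v₀ = v + -(v - algebraMap L F v₀) := by ring
    rw [e]
    have h1 : V.valuation (-(v - algebraMap L F v₀)) < V.valuation v := by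
      rw [Valuation.map_neg, hvval]; exact hv₀
    rw [Valuation.map_add_eq_of_lt_left _ h1, hvval]
  have hv₀0 : v₀ ≠ 0 := by
    rintro rfl; rw [map_zero, map_zero] at hv₀val; exact zero_ne_one hv₀val
  have hv₀' : algebraMap L F v₀ ≠ 0 := (_root_.map_ne_zero _).mpr hv₀0
  have hv₀O : v₀ ∈ O := (hOV v₀).mp ((V.valuation_le_one_iff _).mp hv₀val.le)
  have hv₀iO : v₀⁻¹ ∈ O := by
    refine (hOV _).mp ((V.valuation_le_one_iff _).mp ?_)
    rw [map_inv₀, map_inv₀, hv₀val, inv_one]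
  -- `v = v₀ (1 + π e)`
  set e : F := (v / algebraMap L F v₀ - 1) / π with he
  have heV : e ∈ V := by
    rw [← V.valuation_le_one_iff, he, map_div₀]
    have h1 : V.valuation (v / algebraMap L F v₀ - 1) < 1 := by
      have e1 : v / algebraMap L F v₀ - 1 = (v - algebraMap L F v₀) / algebraMap L F v₀ := by
        field_simp
      rw [e1, map_div₀, hv₀val, div_one]; exact hv₀
    have h2 := hϖV.2 _ h1
    have h3 : 0 < V.valuation π := by
      rw [zero_lt_iff, Valuation.ne_zero_iff]; exact hπ0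
    exact (div_le_one₀ h3).mpr h2
  have hve : v = algebraMap L F v₀ * (1 + π * e) := by
    rw [he]; field_simp; ring
  -- `(1 + π e) ^ p = 1 + π ^ p e'`
  have hη' : (p : F) = algebraMap L F η * π ^ (p - 1) := by
    have := congrArg (algebraMap L F) hη
    rwa [map_natCast, map_mul, map_pow] at this
  obtain ⟨e', he'V, he'⟩ := dly_one_add_pow hp hη' V.toSubring hπV ((hOV η).mpr hηO) heV
  -- `d₀`
  refine ⟨v₀, (c₁ / c₂ / v₀ ^ p - 1) / ϖ ^ p, hv₀O, hv₀iO, hv₀0, ?_, ?_⟩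
  · refine (hOV _).mp ?_
    have h1 : algebraMap L F ((c₁ / c₂ / v₀ ^ p - 1) / ϖ ^ p) = e' + d + π ^ p * e' * d := by
      have hvp : v ^ p = algebraMap L F v₀ ^ p * (1 + π ^ p * e') := by
        rw [hve, mul_pow, he']
      rw [map_div₀, map_sub, map_one, map_div₀, hκ, map_pow, map_pow, ← hπ, hvp]
      have hπp : π ^ p ≠ 0 := pow_ne_zero _ hπ0
      have hv₀p : algebraMap L F v₀ ^ p ≠ 0 := pow_ne_zero _ hv₀'
      field_simp
      ring
    rw [h1]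
    exact V.toSubring.add_mem (V.toSubring.add_mem he'V hdV)
      (V.toSubring.mul_mem (V.toSubring.mul_mem (V.toSubring.pow_mem hπV p) he'V) hdV)
  · have h1 : ϖ ^ p ≠ 0 := pow_ne_zero _ hϖ0
    have h2 : v₀ ^ p ≠ 0 := pow_ne_zero _ hv₀0
    field_simp
    ring

include hp hOV hϖ0 hϖV hη hηO hres in
/-- **one constant for all nodes**: the first normal form rewritten with the constant of the
second -/
theorem dly_const_normal {c₁ c₂ : L} (hc₁ : c₁ ≠ 0) (hc₂ : c₂ ≠ 0) {w₁ w₂ b₁ b₂ : F}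
    (hw₁ : V.valuation w₁ = 1) (hw₂ : V.valuation w₂ = 1) (hb₁ : b₁ ∈ V) (hb₂ : b₂ ∈ V)
    (heq : algebraMap L F c₁ * w₁ ^ p * (1 + algebraMap L F ϖ ^ p * b₁) =
      algebraMap L F c₂ * w₂ ^ p * (1 + algebraMap L F ϖ ^ p * b₂)) :
    ∃ v₀ d₀ : L, v₀ ∈ O ∧ v₀⁻¹ ∈ O ∧ v₀ ≠ 0 ∧ d₀ ∈ O ∧
      algebraMap L F c₁ * w₁ ^ p * (1 + algebraMap L F ϖ ^ p * b₁) =
        algebraMap L F c₂ * (algebraMap L F v₀ * w₁) ^ p *
          (1 + algebraMap L F ϖ ^ p * (algebraMap L F d₀ + b₁ +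
            algebraMap L F ϖ ^ p * algebraMap L F d₀ * b₁)) := by
  obtain ⟨v₀, d₀, h1, h2, h3, h4, h5⟩ := dly_const p hp O V hOV ϖ η hϖ0 hϖV hη hηO hres hc₁ hc₂
    hw₁ hw₂ hb₁ hb₂ heq
  refine ⟨v₀, d₀, h1, h2, h3, h4, ?_⟩
  rw [h5, map_mul, map_mul, map_add, map_one, map_mul, map_pow, map_pow]
  ring

end Const

end Fermat.Agent.Delta
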