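/-
DELTA / COVER-ABS (helper8), part 10: **(C-CONST) without the unit hypothesis on `w₁, w₂`**
(helper9's msg 1322: the normal forms at the nodes are `Z = h_s ^ p · c_s · w_s ^ p (1 + ϖ ^ p b_s)`
with an extra `p`-th power `h_s ^ p`, `h_s ∈ F^×` arbitrary).

* **`dly_const_gen`** : `V` a discrete valuation ring with uniformiser `ϖ ∈ L`, `O = V ∩ L`, (RES);
  `c₁ w₁ ^ p (1 + ϖ ^ p b₁) = c₂ w₂ ^ p (1 + ϖ ^ p b₂)` with `w₁, w₂ ≠ 0` arbitrary, `b_i ∈ V` ⇒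
  `c₁ = c₂ v₀ ^ p (1 + ϖ ^ p d₀)` with `v₀ ∈ L^×`, `d₀ ∈ O`;
* `dly_const_gen_normal` : then `c₁ w₁ ^ p (1 + ϖ ^ p b₁) = c₂ (v₀ w₁) ^ p (1 + ϖ ^ p b)`,
  `b = d₀ + b₁ + ϖ ^ p d₀ b₁`.
-/
import Fermat.Agent.Lib.Delta.Cover.Const
import Fermat.Agent.Lib.Delta.Node.Basic

set_option autoImplicit false
set_option linter.style.haveILetI false
set_option linter.unusedSectionVars false
set_option linter.unusedVariables false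

namespace Fermat.Agent.Delta

variable {L F : Type*} [Field L] [Field F] [Algebra L F] (p : ℕ) (hp : p.Prime)
  (O : ValuationSubring L) (V : ValuationSubring F) [hV : IsDiscreteValuationRing V]
  (hOV : ∀ a : L, algebraMap L F a ∈ V ↔ a ∈ O)
  (ϖ η : L) (hϖ0 : ϖ ≠ 0) (hϖV : DlUnif V (algebraMap L F ϖ))
  (hη : (p : L) = η * ϖ ^ (p - 1)) (hηO : η ∈ O)
  (hres : ∀ (v : F) (a : L), V.valuation v = 1 → V.valuation (v ^ p - algebraMap L F a) < 1 →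
    ∃ v₀ : L, V.valuation (v - algebraMap L F v₀) < 1)

include hp hOV hϖ0 hϖV hη hηO hres in
/-- **(C-CONST)**, general form -/
theorem dly_const_gen {c₁ c₂ : L} (hc₁ : c₁ ≠ 0) (hc₂ : c₂ ≠ 0) {w₁ w₂ b₁ b₂ : F}
    (hw₁ : w₁ ≠ 0) (hw₂ : w₂ ≠ 0) (hb₁ : b₁ ∈ V) (hb₂ : b₂ ∈ V)
    (heq : algebraMap L F c₁ * w₁ ^ p * (1 + algebraMap L F ϖ ^ p * b₁) =
      algebraMap L F c₂ * w₂ ^ p * (1 + algebraMap L F ϖ ^ p * b₂)) :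
    ∃ v₀ d₀ : L, v₀ ≠ 0 ∧ d₀ ∈ O ∧ c₁ = c₂ * v₀ ^ p * (1 + ϖ ^ p * d₀) := by
  set π : F := algebraMap L F ϖ with hπ
  have hπ0 : π ≠ 0 := (_root_.map_ne_zero _).mpr hϖ0
  have hπord : dlOrd V π = 1 := dln_ord_of_unif V hϖV
  set m : ℤ := dlOrd V (w₂ / w₁) with hm
  set v : F := w₂ / w₁ / π ^ m with hv
  have hv0 : v ≠ 0 := div_ne_zero (div_ne_zero hw₂ hw₁) (zpow_ne_zero _ hπ0)
  have hvval : V.valuation v = 1 := by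
    rw [dl_valuation_eq_one_iff V hv0, hv, dlOrd_div V (div_ne_zero hw₂ hw₁) (zpow_ne_zero _ hπ0),
      dlOrd_zpow, hπord, ← hm]
    ring
  have hc₂' : c₂ * ϖ ^ (m * (p : ℤ)) ≠ 0 := mul_ne_zero hc₂ (zpow_ne_zero _ hϖ0)
  have heq' : algebraMap L F c₁ * (1 : F) ^ p * (1 + algebraMap L F ϖ ^ p * b₁) =
      algebraMap L F (c₂ * ϖ ^ (m * (p : ℤ))) * v ^ p * (1 + algebraMap L F ϖ ^ p * b₂) := by
    rw [one_pow, mul_one, map_mul, map_zpow₀, ← hπ, hv, div_pow, div_pow, ← zpow_natCast (π ^ m),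
      ← zpow_mul]
    have h1 : π ^ (m * (p : ℤ)) ≠ 0 := zpow_ne_zero _ hπ0
    have h2 : w₁ ^ p ≠ 0 := pow_ne_zero _ hw₁
    field_simp
    linear_combination heq
  obtain ⟨v₀, d₀, -, -, hv₀0, hd₀, h⟩ := dly_const p hp O V hOV ϖ η hϖ0 hϖV hη hηO hres hc₁ hc₂'
    (by rw [map_one]) hvval hb₁ hb₂ heq'
  refine ⟨ϖ ^ m * v₀, d₀, mul_ne_zero (zpow_ne_zero _ hϖ0) hv₀0, hd₀, ?_⟩
  rw [h, mul_pow, ← zpow_natCast (ϖ ^ m), ← zpow_mul]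
  ring

include hp hOV hϖ0 hϖV hη hηO hres in
/-- **one constant for all nodes**, general form -/
theorem dly_const_gen_normal {c₁ c₂ : L} (hc₁ : c₁ ≠ 0) (hc₂ : c₂ ≠ 0) {w₁ w₂ b₁ b₂ : F}
    (hw₁ : w₁ ≠ 0) (hw₂ : w₂ ≠ 0) (hb₁ : b₁ ∈ V) (hb₂ : b₂ ∈ V)
    (heq : algebraMap L F c₁ * w₁ ^ p * (1 + algebraMap L F ϖ ^ p * b₁) =
      algebraMap L F c₂ * w₂ ^ p * (1 + algebraMap L F ϖ ^ p * b₂)) :
    ∃ v₀ d₀ : L, v₀ ≠ 0 ∧ d₀ ∈ O ∧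
      algebraMap L F c₁ * w₁ ^ p * (1 + algebraMap L F ϖ ^ p * b₁) =
        algebraMap L F c₂ * (algebraMap L F v₀ * w₁) ^ p *
          (1 + algebraMap L F ϖ ^ p * (algebraMap L F d₀ + b₁ +
            algebraMap L F ϖ ^ p * algebraMap L F d₀ * b₁)) := by
  obtain ⟨v₀, d₀, h3, h4, h5⟩ := dly_const_gen p hp O V hOV ϖ η hϖ0 hϖV hη hηO hres hc₁ hc₂
    hw₁ hw₂ hb₁ hb₂ heq
  refine ⟨v₀, d₀, h3, h4, ?_⟩
  rw [h5, map_mul, map_mul, map_add, map_one, map_mul, map_pow, map_pow]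
  ring

end Fermat.Agent.Delta
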