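/-
DELTA / COVER-ABS (helper8), part 4: **translates of a valuation ring by an automorphism**, and
comparison of orders along ring homomorphisms.

* `dlyTr σ Vt = {x | σ x ∈ Vt}` for `σ : F' ≃ₐ[F] F'`; `dlyTr_comap` (same restriction to `F`),
  `dlyTr_mul`, `dlyTr_one`, `dlyTr_valuation_lt_one`, …;
* `dly_ord_map` : a ring homomorphism which maps units to units and a uniformiser to a uniformiser
  preserves the orders.
-/
import Fermat.Agent.Lib.Delta.Node.Ord
import Fermat.Agent.Lib.Delta.Et.Input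

set_option autoImplicit false
set_option linter.style.haveILetI false
set_option linter.unusedSectionVars false
set_option linter.unusedVariables false

namespace Fermat.Agent.Delta

section Tr

variable {F F' : Type*} [Field F] [Field F'] [Algebra F F']

/-- the translate of a valuation ring by an automorphism -/
def dlyTr (σ : F' ≃ₐ[F] F') (Vt : ValuationSubring F') : ValuationSubring F' :=
  Vt.comap (σ : F' →+* F')

theorem mem_dlyTr {σ : F' ≃ₐ[F] F'} {Vt : ValuationSubring F'} {x : F'} :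
    x ∈ dlyTr σ Vt ↔ σ x ∈ Vt := Iff.rfl

theorem dlyTr_comap (σ : F' ≃ₐ[F] F') (Vt : ValuationSubring F') :
    (dlyTr σ Vt).comap (algebraMap F F') = Vt.comap (algebraMap F F') := by
  ext x
  rw [ValuationSubring.mem_comap, ValuationSubring.mem_comap, mem_dlyTr, σ.commutes]

theorem dlyTr_one (Vt : ValuationSubring F') : dlyTr (1 : F' ≃ₐ[F] F') Vt = Vt := by
  ext x
  rw [mem_dlyTr, AlgEquiv.one_apply]

theorem dlyTr_mul (σ σ' : F' ≃ₐ[F] F') (Vt : ValuationSubring F') :
    dlyTr (σ * σ') Vt = dlyTr σ' (dlyTr σ Vt) := by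
  ext x
  rw [mem_dlyTr, mem_dlyTr, mem_dlyTr, AlgEquiv.mul_apply]

theorem dlyTr_valuation_le_one (σ : F' ≃ₐ[F] F') (Vt : ValuationSubring F') (x : F') :
    (dlyTr σ Vt).valuation x ≤ 1 ↔ Vt.valuation (σ x) ≤ 1 := by
  rw [ValuationSubring.valuation_le_one_iff, ValuationSubring.valuation_le_one_iff, mem_dlyTr]

theorem dlyTr_valuation_lt_one (σ : F' ≃ₐ[F] F') (Vt : ValuationSubring F') (x : F') :
    (dlyTr σ Vt).valuation x < 1 ↔ Vt.valuation (σ x) < 1 := by
  rw [dlt_val_lt_one_iff, dlt_val_lt_one_iff, mem_dlyTr, map_inv₀,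
    EmbeddingLike.map_eq_zero_iff]

theorem dlyTr_valuation_eq_one (σ : F' ≃ₐ[F] F') (Vt : ValuationSubring F') (x : F') :
    (dlyTr σ Vt).valuation x = 1 ↔ Vt.valuation (σ x) = 1 := by
  rw [eq_iff_le_not_lt, eq_iff_le_not_lt, dlyTr_valuation_le_one, dlyTr_valuation_lt_one]

end Tr

section OrdMap

variable {F₁ F₂ : Type*} [Field F₁] [Field F₂]

/-- a ring homomorphism mapping units to units and a uniformiser to a uniformiser preserves the
orders -/
theorem dly_ord_map (V₁ : ValuationSubring F₁) (V₂ : ValuationSubring F₂)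
    [IsDiscreteValuationRing V₁] [IsDiscreteValuationRing V₂] (φ : F₁ →+* F₂)
    (hφ : ∀ x : F₁, V₁.valuation x = 1 → V₂.valuation (φ x) = 1) {a : F₁}
    (ha : dlOrd V₁ a = 1) (ha' : dlOrd V₂ (φ a) = 1) (x : F₁) :
    dlOrd V₂ (φ x) = dlOrd V₁ x := by
  rcases eq_or_ne x 0 with rfl | hx
  · rw [map_zero, dlOrd_zero, dlOrd_zero]
  obtain ⟨u, hu, hxu⟩ := dl_exists_unit_mul_zpow V₁ ha hx
  have hu0 : u ≠ 0 := by
    rintro rfl
    rw [map_zero] at hu
    exact zero_ne_one hu
  have ha0 : a ≠ 0 := by rintro rfl; simp at ha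
  have h1 : φ x = φ u * φ a ^ dlOrd V₁ x := by
    conv_lhs => rw [hxu]
    rw [map_mul, map_zpow₀]
  have hφu : φ u ≠ 0 := (map_ne_zero φ).mpr hu0
  have hφa : φ a ≠ 0 := (map_ne_zero φ).mpr ha0
  rw [h1, dlOrd_mul V₂ hφu (zpow_ne_zero _ hφa), dlOrd_zpow, ha',
    (dl_valuation_eq_one_iff V₂ hφu).mp (hφ u hu)]
  ring

end OrdMap

end Fermat.Agent.Delta
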